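/-
S55 (Poitou-Tate), block R: the elementary "reciprocity law" for the subfield of degree `p` of `ℚ(ζ_q)`.
-/
import Mathlib

set_option autoImplicit false

namespace Fermat.Agent.PT

/-- A natural number prime to `q` all of whose prime factors `ℓ` are `p`-th powers mod `q` or occur with
multiplicity divisible by `p` is a `p`-th power mod `q`
(`Nat.prod_factorization_pow_eq_self`, the `p`-th powers are closed under products). -/
theorem natCast_isPow_of_factors {p q : ℕ} [Fact q.Prime] {n : ℕ} (hn : n ≠ 0)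
    (h : ∀ ℓ : ℕ, ℓ.Prime → ℓ ∣ n → (∃ w : ZMod q, w ^ p = (ℓ : ZMod q)) ∨ p ∣ n.factorization ℓ) :
    ∃ w : ZMod q, w ^ p = (n : ZMod q) := by
  classical
  have key : ∀ ℓ ∈ n.factorization.support,
      ∃ w : ZMod q, w ^ p = ((ℓ : ZMod q)) ^ (n.factorization ℓ) := by
    intro ℓ hℓ
    rw [Nat.support_factorization] at hℓ
    have hpr : ℓ.Prime := Nat.prime_of_mem_primeFactors hℓ
    have hdvd : ℓ ∣ n := Nat.dvd_of_mem_primeFactors hℓ
    rcases h ℓ hpr hdvd with ⟨w, hw⟩ | ⟨k, hk⟩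
    · exact ⟨w ^ (n.factorization ℓ), by rw [← pow_mul, mul_comm, pow_mul, hw]⟩
    · exact ⟨(ℓ : ZMod q) ^ k, by rw [← pow_mul, mul_comm, ← hk]⟩
  choose! w hw using key
  refine ⟨∏ ℓ ∈ n.factorization.support, w ℓ, ?_⟩
  rw [← Finset.prod_pow]
  conv_rhs => rw [← Nat.prod_factorization_pow_eq_self hn]
  rw [Finsupp.prod, Nat.cast_prod]
  exact Finset.prod_congr rfl fun ℓ hℓ => by rw [hw ℓ hℓ]; push_cast; rfl

/-- If `x ^ k` is a `p`-th power in a field, `x ≠ 0` and `p ∤ k` (`p` prime), then `x` is a `p`-th power. -/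
theorem Arith_isPow_of_pow_isPow {K : Type*} [Field K] {p k : ℕ} (hp : p.Prime) (hk : ¬ p ∣ k)
    {x y : K} (hx : x ≠ 0) (h : y ^ p = x ^ k) : ∃ w : K, w ^ p = x := by
  have hcop : Nat.Coprime k p := ((Nat.Prime.coprime_iff_not_dvd hp).mpr hk).symm
  obtain ⟨s, -, hs⟩ := Nat.exists_mul_mod_eq_one_of_coprime hcop hp.one_lt
  -- `k * s = p * t + 1`
  have hdiv := Nat.div_add_mod (k * s) p
  rw [hs] at hdiv
  set t := k * s / p with ht
  refine ⟨y ^ s / x ^ t, ?_⟩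
  have hxt : (x ^ t) ^ p ≠ 0 := pow_ne_zero _ (pow_ne_zero _ hx)
  rw [div_pow, div_eq_iff hxt, ← pow_mul, mul_comm s p, pow_mul, h, ← pow_mul, ← pow_mul, ← hdiv,
    pow_add, pow_one, mul_comm t p, mul_comm]

/-- **Reciprocity, elementary form.**
Proof.  `n := padicValRat q c`, `m := padicValRat ℓ₀ c`, `r := c * q^(-n)`, `r₁ := r * ℓ₀^(-m)`.
`r₁.num.natAbs` and `r₁.den` are prime to `q` and to `ℓ₀` and satisfy the hypothesis of
`natCast_isPow_of_factors` (`padicValRat ℓ r₁ = padicValRat ℓ c` for `ℓ ≠ q, ℓ₀`;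
`padicValRat.defn`/`padicValRat_def`: `padicValRat ℓ r₁ = padicValInt ℓ num - padicValNat ℓ den`, and only one
of the two is nonzero by coprimality), `-1 = (-1)^p` as `p` is odd.  So `(r₁ : ZMod q)` is a `p`-th power
(`Rat.cast_def`), nonzero.  `(r : ZMod q) = (r₁ : ZMod q) * ℓ₀ ^ m` (`Rat.cast_mul_of_ne_zero`,
`Rat.cast_zpow_of_ne_zero`-like lemmas, or clear denominators by hand) so `(ℓ₀ : ZMod q) ^ m` (`m : ℤ`) is a
`p`-th power.  If `p ∤ m`, Bezout `m a + p b = 1` shows that `ℓ₀` is a `p`-th power mod `q`. -/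
theorem dvd_padicValRat_of_reciprocity {p q ℓ₀ : ℕ} [Fact p.Prime] [Fact q.Prime] (hp2 : p ≠ 2)
    (hℓ₀ : ℓ₀.Prime) (hne : ℓ₀ ≠ q) {c : ℚ} (hc : c ≠ 0)
    (h1 : ∀ ℓ : ℕ, ℓ.Prime → ℓ ≠ q → ℓ ≠ ℓ₀ →
      (∃ w : ZMod q, w ^ p = (ℓ : ZMod q)) ∨ (p : ℤ) ∣ padicValRat ℓ c)
    (h2 : ∃ a : ZMod q, ((c * (q : ℚ) ^ (-padicValRat q c) : ℚ) : ZMod q) = a ^ p)
    (h3 : ¬ ∃ w : ZMod q, w ^ p = (ℓ₀ : ZMod q)) : (p : ℤ) ∣ padicValRat ℓ₀ c := by
  classical
  have hpP : p.Prime := Fact.out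
  have hqP : q.Prime := Fact.out
  set n := padicValRat q c with hn
  set r : ℚ := c * (q : ℚ) ^ (-n) with hr
  have hq0 : (q : ℚ) ≠ 0 := by exact_mod_cast hqP.ne_zero
  have hr0 : r ≠ 0 := mul_ne_zero hc (zpow_ne_zero _ hq0)
  have hval : ∀ ℓ : ℕ, ℓ.Prime → ℓ ≠ q → padicValRat ℓ r = padicValRat ℓ c := by
    intro ℓ hℓ hℓq
    have := Fact.mk hℓ
    rw [hr, padicValRat.mul hc (zpow_ne_zero _ hq0), padicValRat.zpow, padicValRat.of_nat,
      padicValNat_primes hℓq]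
    simp
  have hvalq : padicValRat q r = 0 := by
    rw [hr, padicValRat.mul hc (zpow_ne_zero _ hq0), padicValRat.zpow,
      padicValRat.self hqP.one_lt, ← hn]
    ring
  set N := r.num.natAbs with hN
  set D := r.den with hD
  have hN0 : N ≠ 0 := by
    rw [hN, Int.natAbs_ne_zero]; exact Rat.num_ne_zero.mpr hr0
  have hD0 : D ≠ 0 := r.den_nz
  have hcop : Nat.Coprime N D := r.reduced
  have hfac : ∀ ℓ : ℕ, ℓ.Prime →
      padicValRat ℓ r = (N.factorization ℓ : ℤ) - (D.factorization ℓ : ℤ) := by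
    intro ℓ hℓ
    rw [padicValRat_def, Nat.factorization_def _ hℓ, Nat.factorization_def _ hℓ]
    rfl
  -- a prime divides at most one of `N`, `D`
  have hND : ∀ ℓ : ℕ, ℓ.Prime → ℓ ∣ N → D.factorization ℓ = 0 := by
    intro ℓ hℓ hℓN
    apply Nat.factorization_eq_zero_of_not_dvd
    intro hℓD
    exact hℓ.one_lt.ne' (Nat.eq_one_of_dvd_coprimes hcop hℓN hℓD)
  have hDN : ∀ ℓ : ℕ, ℓ.Prime → ℓ ∣ D → N.factorization ℓ = 0 := by
    intro ℓ hℓ hℓD
    apply Nat.factorization_eq_zero_of_not_dvd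
    intro hℓN
    exact hℓ.one_lt.ne' (Nat.eq_one_of_dvd_coprimes hcop hℓN hℓD)
  have hqN : ¬ q ∣ N := by
    intro h
    have h1' := hfac q hqP
    rw [hvalq, hND q hqP h] at h1'
    have h2' : 0 < N.factorization q := hqP.factorization_pos_of_dvd hN0 h
    omega
  have hqD : ¬ q ∣ D := by
    intro h
    have h1' := hfac q hqP
    rw [hvalq, hDN q hqP h] at h1'
    have h2' : 0 < D.factorization q := hqP.factorization_pos_of_dvd hD0 h
    omega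
  set α := N.factorization ℓ₀ with hα
  set β := D.factorization ℓ₀ with hβ
  set N₁ := N / ℓ₀ ^ α with hN₁
  set D₁ := D / ℓ₀ ^ β with hD₁
  have hNeq : ℓ₀ ^ α * N₁ = N := Nat.ordProj_mul_ordCompl_eq_self N ℓ₀
  have hDeq : ℓ₀ ^ β * D₁ = D := Nat.ordProj_mul_ordCompl_eq_self D ℓ₀
  have hN₁0 : N₁ ≠ 0 := (Nat.ordCompl_pos ℓ₀ hN0).ne'
  have hD₁0 : D₁ ≠ 0 := (Nat.ordCompl_pos ℓ₀ hD0).ne'
  obtain ⟨u, hu⟩ : ∃ u : ZMod q, u ^ p = (N₁ : ZMod q) := by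
    apply natCast_isPow_of_factors hN₁0
    intro ℓ hℓ hℓN₁
    have hℓℓ₀ : ℓ ≠ ℓ₀ := by
      rintro rfl
      exact Nat.not_dvd_ordCompl hℓ hN0 hℓN₁
    have hℓN : ℓ ∣ N := hℓN₁.trans (Nat.ordCompl_dvd N ℓ₀)
    have hℓq : ℓ ≠ q := by
      rintro rfl
      exact hqN hℓN
    rcases h1 ℓ hℓ hℓq hℓℓ₀ with h | h
    · exact Or.inl h
    · right
      rw [← hval ℓ hℓ hℓq, hfac ℓ hℓ, hND ℓ hℓ hℓN] at h
      have h' : (p : ℤ) ∣ (N.factorization ℓ : ℤ) := by simpa using h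
      rw [hN₁, Nat.factorization_ordCompl, Finsupp.erase_ne hℓℓ₀]
      exact_mod_cast h'
  obtain ⟨v, hv⟩ : ∃ v : ZMod q, v ^ p = (D₁ : ZMod q) := by
    apply natCast_isPow_of_factors hD₁0
    intro ℓ hℓ hℓD₁
    have hℓℓ₀ : ℓ ≠ ℓ₀ := by
      rintro rfl
      exact Nat.not_dvd_ordCompl hℓ hD0 hℓD₁
    have hℓD : ℓ ∣ D := hℓD₁.trans (Nat.ordCompl_dvd D ℓ₀)
    have hℓq : ℓ ≠ q := by
      rintro rfl
      exact hqD hℓD
    rcases h1 ℓ hℓ hℓq hℓℓ₀ with h | h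
    · exact Or.inl h
    · right
      rw [← hval ℓ hℓ hℓq, hfac ℓ hℓ, hDN ℓ hℓ hℓD] at h
      have h' : (p : ℤ) ∣ (D.factorization ℓ : ℤ) := by
        have : (p : ℤ) ∣ -(D.factorization ℓ : ℤ) := by simpa using h
        exact (dvd_neg).mp this
      rw [hD₁, Nat.factorization_ordCompl, Finsupp.erase_ne hℓℓ₀]
      exact_mod_cast h'
  -- computations in `ZMod q`
  set L : ZMod q := (ℓ₀ : ZMod q) with hL
  have hL0 : L ≠ 0 := by
    rw [hL, Ne, ZMod.natCast_eq_zero_iff]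
    intro h
    exact hne ((Nat.prime_dvd_prime_iff_eq hqP hℓ₀).mp h).symm
  have hNc : (N : ZMod q) = L ^ α * u ^ p := by
    rw [hu, ← hNeq]; push_cast; rfl
  have hDc : (D : ZMod q) = L ^ β * v ^ p := by
    rw [hv, ← hDeq]; push_cast; rfl
  have hNc0 : (N : ZMod q) ≠ 0 := by
    rw [Ne, ZMod.natCast_eq_zero_iff]; exact hqN
  have hDc0 : (D : ZMod q) ≠ 0 := by
    rw [Ne, ZMod.natCast_eq_zero_iff]; exact hqD
  have hodd : Odd p := hpP.odd_of_ne_two hp2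
  obtain ⟨a, ha⟩ := h2
  obtain ⟨e, he0, he⟩ : ∃ e : ZMod q, e ≠ 0 ∧ (r.num : ZMod q) = e ^ p * (N : ZMod q) := by
    rcases Int.natAbs_eq r.num with h | h
    · refine ⟨1, one_ne_zero, ?_⟩
      rw [one_pow, one_mul, h]
      simp [hN]
    · refine ⟨-1, neg_ne_zero.mpr one_ne_zero, ?_⟩
      rw [hodd.neg_one_pow, h]
      simp [hN]
  rw [Rat.cast_def, div_eq_iff hDc0, he] at ha
  -- `(e u)^p L^α = (a v)^p L^β`
  have hmain : (e * u) ^ p * L ^ α = (a * v) ^ p * L ^ β := by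
    rw [mul_pow, mul_pow]
    have : e ^ p * (L ^ α * u ^ p) = a ^ p * (L ^ β * v ^ p) := by rw [← hNc, ← hDc]; exact ha
    linear_combination this
  have hu0 : u ≠ 0 := by
    rintro rfl
    rw [zero_pow hpP.ne_zero, mul_zero] at hNc
    exact hNc0 hNc
  have heu0 : (e * u) ^ p ≠ 0 := pow_ne_zero _ (mul_ne_zero he0 hu0)
  have hav0 : (a * v) ^ p ≠ 0 := by
    intro h0
    rw [h0, zero_mul] at hmain
    exact (mul_ne_zero heu0 (pow_ne_zero _ hL0)) hmain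
  rw [← hval ℓ₀ hℓ₀ hne, hfac ℓ₀ hℓ₀, ← hα, ← hβ]
  by_cases hdiv : ℓ₀ ∣ N
  · have hβ0 : β = 0 := hND ℓ₀ hℓ₀ hdiv
    rw [hβ0, pow_zero, mul_one] at hmain
    rw [hβ0]
    simp only [Nat.cast_zero, sub_zero]
    by_contra hcon
    apply h3
    refine Arith_isPow_of_pow_isPow (k := α) (y := (a * v) / (e * u)) hpP
      (fun h => hcon (by exact_mod_cast h)) hL0 ?_
    rw [div_pow, div_eq_iff heu0, ← hmain, mul_comm]
  · have hα0 : α = 0 := Nat.factorization_eq_zero_of_not_dvd hdiv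
    rw [hα0, pow_zero, mul_one] at hmain
    rw [hα0]
    simp only [Nat.cast_zero, zero_sub, dvd_neg]
    by_contra hcon
    apply h3
    refine Arith_isPow_of_pow_isPow (k := β) (y := (e * u) / (a * v)) hpP
      (fun h => hcon (by exact_mod_cast h)) hL0 ?_
    rw [div_pow, div_eq_iff hav0, hmain, mul_comm]

end Fermat.Agent.PT
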