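/-
S55 (Poitou-Tate), block R: the auxiliary prime `q ≡ 1 mod p` modulo which a given prime `ℓ` is not a
`p`-th power.
-/
import Fermat.Agent.CFT.EX1

set_option autoImplicit false

namespace Fermat.Agent.PT

open NumberField in
/-- A rational prime is not a `p`-th power in the `p`-th cyclotomic field. -/
theorem ExistsQ_not_pow (p : ℕ) [Fact p.Prime] {ℓ : ℕ} (hℓ : ℓ.Prime) (b : CyclotomicField p ℚ) :
    b ^ p ≠ (ℓ : CyclotomicField p ℚ) := by
  have hp : p.Prime := Fact.out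
  have : NeZero p := ⟨hp.ne_zero⟩
  have : IsCyclotomicExtension {p} ℚ (CyclotomicField p ℚ) :=
    CyclotomicField.isCyclotomicExtension p ℚ
  intro hb
  have hfin : Module.finrank ℚ (CyclotomicField p ℚ) = p - 1 := by
    rw [IsCyclotomicExtension.finrank (n := p) (CyclotomicField p ℚ)
      (Polynomial.cyclotomic.irreducible_rat hp.pos), Nat.totient_prime hp]
  have h1 : (Algebra.norm ℚ b) ^ p = (ℓ : ℚ) ^ (p - 1) := by
    rw [← map_pow, hb, ← hfin]
    have : (ℓ : CyclotomicField p ℚ) = algebraMap ℚ (CyclotomicField p ℚ) (ℓ : ℚ) := by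
      rw [map_natCast]
    rw [this, Algebra.norm_algebraMap]
  have : Fact ℓ.Prime := ⟨hℓ⟩
  have hℓ0 : (ℓ : ℚ) ≠ 0 := by exact_mod_cast hℓ.ne_zero
  have h2 := congrArg (padicValRat ℓ) h1
  rw [padicValRat.pow, padicValRat.pow, padicValRat.self hℓ.one_lt, mul_one] at h2
  have h3 : (p : ℤ) ∣ ((p - 1 : ℕ) : ℤ) := ⟨_, h2.symm⟩
  have h4 : p ∣ p - 1 := by exact_mod_cast h3
  have h5 := Nat.le_of_dvd (by have := hp.two_le; omega) h4
  have := hp.two_le
  omega

/-- Proof.  `M := CyclotomicField p ℚ`, `ζ : 𝓞 M` primitive (`IsCyclotomicExtension.zeta_spec`,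
`IsPrimitiveRoot.toInteger`), `u := (ℓ : 𝓞 M)`.
* `ℓ` is not a `p`-th power in `M`: if `b ^ p = ℓ` then `(Algebra.norm ℚ b) ^ p = ℓ ^ (p - 1)`
  (`Algebra.norm_algebraMap`, `finrank ℚ M = φ p = p - 1`), take `padicValRat ℓ`:
  `p * _ = p - 1`, impossible.
* `CFT.EX1.infinite_nonresidue` gives a prime `w` of `𝓞 M` with `¬ ∃ t, t ^ p - ℓ ∈ w`.
* `q` := the rational prime below `w` (`(q : 𝓞 M) ∈ w.asIdeal`; e.g. `Ideal.absNorm`/`Ideal.under`
  / `CFT.exists_prime_over`).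
* if `w₀ : ZMod q` satisfies `w₀ ^ p = ℓ` then `t := (w₀.val : 𝓞 M)` has `t ^ p - ℓ ∈ (q) ⊆ w`:
  contradiction.  This gives the last claim.
* if `p ∤ q - 1` then `x ↦ x ^ p` is a bijection of `ZMod q` (coprime to the order `q - 1` of the
  unit group; `0 ↦ 0`), so `ℓ` would be a `p`-th power: contradiction.  `q ≠ ℓ` since `0 = 0 ^ p`. -/
theorem exists_aux_prime (p : ℕ) [Fact p.Prime] {ℓ : ℕ} (hℓ : ℓ.Prime) :
    ∃ q : ℕ, q.Prime ∧ p ∣ q - 1 ∧ q ≠ ℓ ∧ ¬ ∃ w : ZMod q, w ^ p = (ℓ : ZMod q) := by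
  have hp : p.Prime := Fact.out
  have : NeZero p := ⟨hp.ne_zero⟩
  have : IsCyclotomicExtension {p} ℚ (CyclotomicField p ℚ) :=
    CyclotomicField.isCyclotomicExtension p ℚ
  have hζM : IsPrimitiveRoot (IsCyclotomicExtension.zeta p ℚ (CyclotomicField p ℚ)) p :=
    IsCyclotomicExtension.zeta_spec p ℚ (CyclotomicField p ℚ)
  have hζ : IsPrimitiveRoot hζM.toInteger p := hζM.toInteger_isPrimitiveRoot
  have hu : ∀ b : CyclotomicField p ℚ,
      b ^ p ≠ (((ℓ : NumberField.RingOfIntegers (CyclotomicField p ℚ))) : CyclotomicField p ℚ) := by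
    intro b
    have := ExistsQ_not_pow p hℓ b
    simpa using this
  obtain ⟨w, hw⟩ := (CFT.EX1.infinite_nonresidue hp hζ
    (ℓ : NumberField.RingOfIntegers (CyclotomicField p ℚ)) hu).nonempty
  have hw' : ¬ ∃ t : NumberField.RingOfIntegers (CyclotomicField p ℚ),
      t ^ p - (ℓ : NumberField.RingOfIntegers (CyclotomicField p ℚ)) ∈ w.asIdeal := hw
  have : w.asIdeal.IsPrime := w.isPrime
  have : Finite (NumberField.RingOfIntegers (CyclotomicField p ℚ) ⧸ w.asIdeal) :=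
    Ideal.finiteQuotientOfFreeOfNeBot w.asIdeal w.ne_bot
  obtain ⟨q, hq⟩ := CharP.exists (NumberField.RingOfIntegers (CyclotomicField p ℚ) ⧸ w.asIdeal)
  have hqp : q.Prime :=
    CharP.char_is_prime (NumberField.RingOfIntegers (CyclotomicField p ℚ) ⧸ w.asIdeal) q
  have : Fact q.Prime := ⟨hqp⟩
  have hlast : ¬ ∃ w₀ : ZMod q, w₀ ^ p = (ℓ : ZMod q) := by
    rintro ⟨w₀, hw₀⟩
    apply hw'
    obtain ⟨t, ht⟩ := Ideal.Quotient.mk_surjective (I := w.asIdeal)
      (ZMod.castHom (dvd_refl q)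
        (NumberField.RingOfIntegers (CyclotomicField p ℚ) ⧸ w.asIdeal) w₀)
    refine ⟨t, ?_⟩
    rw [← Ideal.Quotient.eq_zero_iff_mem, map_sub, map_pow, ht, ← map_pow, hw₀, map_natCast,
      map_natCast, sub_self]
  refine ⟨q, hqp, ?_, ?_, hlast⟩
  · by_contra hnd
    apply hlast
    by_cases h0 : (ℓ : ZMod q) = 0
    · exact ⟨0, by rw [h0, zero_pow hp.ne_zero]⟩
    · have hcop : (Nat.card (ZMod q)ˣ).Coprime p := by
        rw [Nat.card_eq_fintype_card, ZMod.card_units]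
        exact ((Nat.Prime.coprime_iff_not_dvd hp).mpr hnd).symm
      obtain ⟨y, hy⟩ := (powCoprime hcop).surjective (Units.mk0 _ h0)
      refine ⟨(y : ZMod q), ?_⟩
      have := congrArg (fun u : (ZMod q)ˣ => (u : ZMod q)) hy
      simpa using this
  · rintro rfl
    exact hlast ⟨0, by rw [ZMod.natCast_self, zero_pow hp.ne_zero]⟩

end Fermat.Agent.PT
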