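/-
S55 (Poitou-Tate), block R: formal lemmas: `H²` of order `p` is generated by any nonzero class;
`theta (j • b) = j • theta b`; rational numbers as elements of `Additive Qbarˣ`.
-/
import Fermat.Agent.PT.B.Cyclic
import Fermat.Agent.PT.B.Galois

set_option autoImplicit false

noncomputable section

namespace Fermat.Agent.PT

section abstract

variable {G : Type*} [Group G] {L : LevelSystem G} {p : ℕ} [Fact p.Prime]
variable {T : Type*} [AddCommGroup T] [Module (ZMod p) T] {τ : Representation (ZMod p) G T}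

/-- If `H²` has `p` elements, every class is a multiple of a given nonzero class.
(The `ZMod p`-span of the class of `t` in `H2 L V τ` is a nonzero subspace of a space with `p` elements;
or: `j ↦ j • [t]`, `ZMod p → H2` is injective, hence bijective by cardinality.) -/
theorem exists_nsmul_sub_mem_B2 {V : Subgroup G} (hcard : Nat.card (H2 L V τ) = p)
    {t w : G → G → G → T} (ht : t ∈ Z2 L V τ) (ht' : t ∉ B2 L V τ) (hw : w ∈ Z2 L V τ) :
    ∃ j : ℕ, w - j • t ∈ B2 L V τ := by
  have hp : p.Prime := Fact.out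
  have hfin : Finite (H2 L V τ) := Nat.finite_of_card_ne_zero (by rw [hcard]; exact hp.ne_zero)
  have hc : H2.mk L V τ ⟨t, ht⟩ ≠ 0 := by
    rw [Ne, H2.mk_eq_zero_iff]
    exact ht'
  have hinj : Function.Injective (fun a : ZMod p => a • H2.mk L V τ ⟨t, ht⟩) :=
    smul_left_injective (ZMod p) hc
  have hbij := hinj.bijective_of_nat_card_le (by rw [hcard, Nat.card_zmod])
  obtain ⟨a, ha⟩ := hbij.2 (H2.mk L V τ ⟨w, hw⟩)
  refine ⟨a.val, ?_⟩
  have h1 : H2.mk L V τ (⟨w, hw⟩ - a.val • ⟨t, ht⟩) = 0 := by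
    rw [map_sub, map_nsmul, ← Nat.cast_smul_eq_nsmul (ZMod p), ZMod.natCast_zmod_val, sub_eq_zero]
    exact ha.symm
  rw [H2.mk_eq_zero_iff] at h1
  exact h1

variable {A : Type*} [AddCommGroup A] {ρ : Representation ℤ G A} {ι : T →+ A}

/-- induction on `j` from `theta_add` (`theta 0 x ∈ B2` follows from `theta_add` with `b = b' = 0`). -/
theorem KummerSetup.theta_nsmul (K : KummerSetup L p ρ τ ι) {V : Subgroup G} {x : G → G → ZMod p}
    {b : A} (hb : ∀ v ∈ V, ρ v b = b) (hx : x ∈ Z1 L V (trivZ p G)) (j : ℕ) :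
    K.theta (j • b) x - j • K.theta b x ∈ B2 L V τ := by
  induction j with
  | zero =>
    have h0 : ∀ v ∈ V, ρ v (0 : A) = 0 := fun v _ => map_zero _
    have h := neg_mem (K.theta_add h0 h0 hx)
    rw [add_zero] at h
    have h2 : -(K.theta 0 x - (K.theta 0 x + K.theta 0 x)) = K.theta (0 • b) x - 0 • K.theta b x := by
      rw [zero_smul, zero_smul]
      abel
    rwa [h2] at h
  | succ j ih =>
    have hjb : ∀ v ∈ V, ρ v (j • b) = j • b := fun v hv => by rw [map_nsmul, hb v hv]
    have h := add_mem (K.theta_add hjb hb hx) ih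
    have h2 : K.theta (j • b + b) x - (K.theta (j • b) x + K.theta b x)
        + (K.theta (j • b) x - j • K.theta b x)
        = K.theta ((j + 1) • b) x - (j + 1) • K.theta b x := by
      rw [succ_nsmul, succ_nsmul]
      abel
    rwa [h2] at h

/-- `theta (b - b') = theta b - theta b'` modulo coboundaries (`theta_add`, `theta_neg`). -/
theorem KummerSetup.theta_sub (K : KummerSetup L p ρ τ ι) {V : Subgroup G} {x : G → G → ZMod p}
    {b b' : A} (hb : ∀ v ∈ V, ρ v b = b) (hb' : ∀ v ∈ V, ρ v b' = b')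
    (hx : x ∈ Z1 L V (trivZ p G)) :
    K.theta (b - b') x - (K.theta b x - K.theta b' x) ∈ B2 L V τ := by
  have hnb' : ∀ v ∈ V, ρ v (-b') = -b' := fun v hv => by rw [map_neg, hb' v hv]
  have h := add_mem (K.theta_add hb hnb' hx) (K.theta_neg hb' hx)
  have h2 : K.theta (b + -b') x - (K.theta b x + K.theta (-b') x)
      + (K.theta (-b') x + K.theta b' x)
      = K.theta (b - b') x - (K.theta b x - K.theta b' x) := by
    rw [sub_eq_add_neg b b']
    abel
  rwa [h2] at h

/-- multiples of `p` are zero in a `ZMod p`-module of functions. -/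
theorem nsmul_eq_zero_of_dvd {j : ℕ} (hj : p ∣ j) (t : G → G → G → T) : j • t = 0 := by
  rw [← Nat.cast_smul_eq_nsmul (ZMod p), (ZMod.natCast_eq_zero_iff j p).2 hj, zero_smul]

end abstract

/-- a nonzero rational number as an element of `Additive Qbarˣ`. -/
def ratA (c : ℚ) (hc : c ≠ 0) : Additive Qbarˣ :=
  Additive.ofMul (Units.mk0 (algebraMap ℚ Qbar c) (by simpa using hc))

theorem toMul_ratA (c : ℚ) (hc : c ≠ 0) :
    ((Additive.toMul (ratA c hc) : Qbarˣ) : Qbar) = algebraMap ℚ Qbar c := rfl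

theorem ratA_fixed (c : ℚ) (hc : c ≠ 0) (v : GQ) : multRep v (ratA c hc) = ratA c hc := by
  rw [ratA, multRep_apply]
  congr 1
  ext
  exact v.commutes c

/-- `(Qbar^×)^{GQ} = ℚ^×` (`multRep_fixed_iff`, `InfiniteGalois`/`IsGalois.fixedField_top`,
`IntermediateField.mem_bot`). -/
theorem exists_ratA_of_fixed {b : Additive Qbarˣ} (hb : ∀ v ∈ (⊤ : Subgroup GQ), multRep v b = b) :
    ∃ (c : ℚ) (hc : c ≠ 0), b = ratA c hc := by
  set x : Qbarˣ := Additive.toMul b with hx
  have hb' : ∀ v ∈ (⊤ : Subgroup GQ), multRep v (Additive.ofMul x) = Additive.ofMul x := hb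
  rw [multRep_fixed_iff, ← IntermediateField.fixingSubgroup_bot,
    InfiniteGalois.fixedField_fixingSubgroup, IntermediateField.mem_bot] at hb'
  obtain ⟨c, hc⟩ := hb'
  have hc0 : c ≠ 0 := by
    rintro rfl
    rw [map_zero] at hc
    exact x.ne_zero hc.symm
  refine ⟨c, hc0, ?_⟩
  show Additive.ofMul x = _
  rw [ratA]
  congr 1
  ext
  exact hc.symm

theorem ratA_sub_nsmul (c c' : ℚ) (hc : c ≠ 0) (hc' : c' ≠ 0) (j : ℕ) :
    ratA c hc - j • ratA c' hc' = ratA (c / c' ^ j) (div_ne_zero hc (pow_ne_zero _ hc')) := by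
  rw [ratA, ratA, ratA, ← ofMul_pow, ← ofMul_div]
  congr 1
  ext
  simp

end Fermat.Agent.PT

end
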