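/-
S55 (Poitou-Tate), block R: the character of `GQ` of order `p` cutting out the subfield of degree `p`
of `ℚ(ζ_q)`, `q ≡ 1 mod p`, as a cocycle `xq ψ ∈ Z1 Lall ⊤ (trivZ p GQ)`.
-/
import Fermat.Agent.PT.B.Galois
import Fermat.Agent.PT.B.CycDefs

set_option autoImplicit false

open ExtCitation

noncomputable section

namespace Fermat.Agent.PT

/-- `(ℤ/q)^× / p`-th powers `≅ ℤ/p`.
Proof: `(ZMod q)ˣ` is cyclic of order `q - 1` (`ZMod.card_units`, `isCyclic`); pick a generator `γ`;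
`ψ (γ ^ k) := k mod p` (well defined as `p ∣ q - 1`; e.g. `zmultiplesHom`/`zpowersEquiv...` or
`MonoidHom` obtained from `IsCyclic`/`ZMod.lift`). -/
theorem exists_psiR (p q : ℕ) [Fact p.Prime] [Fact q.Prime] (h : p ∣ q - 1) :
    ∃ ψ : (ZMod q)ˣ →* Multiplicative (ZMod p), Function.Surjective ψ ∧
      ∀ u, ψ u = 1 ↔ ∃ w : (ZMod q)ˣ, w ^ p = u := by
  have hq : q.Prime := Fact.out
  have hcard : Nat.card (ZMod q)ˣ = q - 1 := by
    rw [Nat.card_eq_fintype_card, ZMod.card_units]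
  have hn : NeZero (q - 1) := ⟨by have := hq.two_le; omega⟩
  have hcyc : IsCyclic (ZMod q)ˣ := inferInstance
  have h' : p ∣ Nat.card (ZMod q)ˣ := hcard ▸ h
  have hn' : NeZero (Nat.card (ZMod q)ˣ) := hcard ▸ hn
  set e : Multiplicative (ZMod (Nat.card (ZMod q)ˣ)) ≃* (ZMod q)ˣ := zmodCyclicMulEquiv hcyc with he
  set c : ZMod (Nat.card (ZMod q)ˣ) →+ ZMod p := (ZMod.castHom h' (ZMod p)).toAddMonoidHom with hc
  refine ⟨(AddMonoidHom.toMultiplicative c).comp e.symm.toMonoidHom, ?_, fun u => ?_⟩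
  · intro y
    obtain ⟨x, hx⟩ := ZMod.castHom_surjective h' (Multiplicative.toAdd y)
    exact ⟨e (Multiplicative.ofAdd x), by
      simp only [MonoidHom.comp_apply, MulEquiv.coe_toMonoidHom, MulEquiv.symm_apply_apply]
      exact congrArg Multiplicative.ofAdd hx⟩
  · have key : ((AddMonoidHom.toMultiplicative c).comp e.symm.toMonoidHom) u = 1 ↔
        ZMod.castHom h' (ZMod p) (Multiplicative.toAdd (e.symm u)) = 0 := Iff.rfl
    rw [key]
    constructor
    · intro h0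
      set x := Multiplicative.toAdd (e.symm u) with hx
      have h1 : ((x.val : ℕ) : ZMod p) = 0 := by
        have h2 : ZMod.castHom h' (ZMod p) ((x.val : ℕ) : ZMod (Nat.card (ZMod q)ˣ)) = 0 := by
          rw [ZMod.natCast_zmod_val]
          exact h0
        rwa [map_natCast] at h2
      obtain ⟨k, hk⟩ := (ZMod.natCast_eq_zero_iff _ _).1 h1
      refine ⟨e (Multiplicative.ofAdd (k : ZMod (Nat.card (ZMod q)ˣ))), ?_⟩
      rw [← map_pow, ← ofAdd_nsmul]
      have h3 : p • (k : ZMod (Nat.card (ZMod q)ˣ)) = x := by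
        rw [nsmul_eq_mul, ← Nat.cast_mul, ← hk, ZMod.natCast_zmod_val]
      rw [h3, hx, ofAdd_toAdd, MulEquiv.apply_symm_apply]
    · rintro ⟨w, rfl⟩
      rw [map_pow, toAdd_pow, map_nsmul, nsmul_eq_mul, ZMod.natCast_self, zero_mul]

variable {p q : ℕ} [Fact p.Prime] [Fact q.Prime] (ψ : (ZMod q)ˣ →* Multiplicative (ZMod p))

/-- the homogeneous cocycle of the character `g ↦ ψ (cycloChar q g)` of `GQ`. -/
def xq : GQ → GQ → ZMod p := fun g₀ g₁ => Multiplicative.toAdd (ψ (cycloChar q (g₀⁻¹ * g₁)))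

theorem xq_one (g : GQ) : xq ψ 1 g = Multiplicative.toAdd (ψ (cycloChar q g)) := by
  simp [xq]

/-- invariance: clear; cocycle: `ψ ∘ cycloChar q` is a hom; smooth: a level `U ≤ G1 q`
(`G1_isOpen q`). -/
theorem xq_mem_Z1 : xq ψ ∈ Z1 Lall ⊤ (trivZ p GQ) := by
  have hsub : ∀ g₀ g₁ : GQ, xq ψ g₀ g₁ = xq ψ 1 g₁ - xq ψ 1 g₀ := by
    intro g₀ g₁
    rw [xq_one, xq_one, xq, map_mul, map_mul, map_inv, map_inv, toAdd_mul, toAdd_inv]
    ring
  have hmul : ∀ g h : GQ, xq ψ 1 (g * h) = xq ψ 1 g + xq ψ 1 h := by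
    intro g h
    rw [xq_one, xq_one, xq_one, map_mul, map_mul, toAdd_mul]
  have hG1 : ∀ u ∈ G1 q, xq ψ 1 u = 0 := by
    intro u hu
    have hu' : cycloChar q u = 1 := hu
    rw [xq_one, hu', map_one, toAdd_one]
  rw [mem_Z1, mem_X1]
  refine ⟨⟨?_, ?_⟩, ?_⟩
  · intro v _ g₀ g₁
    show xq ψ (v * g₀) (v * g₁) = xq ψ g₀ g₁
    rw [hsub, hsub g₀ g₁, hmul, hmul]
    ring
  · obtain ⟨U, hU, hle⟩ := G1_isOpen q
    refine ⟨U, hU, fun g₀ g₁ u₀ h₀ u₁ h₁ => ?_⟩
    rw [hsub, hsub g₀ g₁, hmul, hmul, hG1 _ (hle h₀), hG1 _ (hle h₁)]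
    ring
  · funext g₀ g₁ g₂
    simp only [d1_apply, Pi.zero_apply]
    rw [hsub g₁ g₂, hsub g₀ g₂, hsub g₀ g₁]
    ring

theorem xq_mem_Z1' (V : Subgroup GQ) : xq ψ ∈ Z1 Lall V (trivZ p GQ) :=
  Z1_le_of_le le_top (xq_mem_Z1 ψ)

theorem G1_le_kerOf : G1 q ≤ kerOf ⊤ (xq ψ) := by
  intro g hg
  refine ⟨Subgroup.mem_top g, fun h => ?_⟩
  have hg' : cycloChar q g = 1 := hg
  rw [xq_one, xq_one, map_mul, hg', one_mul]

theorem isOpen_kerOf_xq : Lall.IsOpen (kerOf ⊤ (xq ψ)) := by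
  obtain ⟨U, hU, h⟩ := G1_isOpen q
  exact ⟨U, hU, h.trans (G1_le_kerOf ψ)⟩

/-- characterisation of the cyclotomic character mod `q` by the action on `μ_q`
(`modularCyclotomicCharacter.spec` / `.unique`, see `PT/Global/Cyc/Level.lean : G1_le_Cyc_one` and
`PT/Bridge/Levels.lean : exists_level_cycloChar` for the pattern). -/
theorem cycloChar_eq_of_actsBy {g : GQ} {c : ℕ} (h : ∀ z : Qbar, z ^ q = 1 → g z = z ^ c) :
    ((cycloChar q g : (ZMod q)ˣ) : ZMod q) = (c : ZMod q) := by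
  have hq : q.Prime := Fact.out
  have : NeZero q := ⟨hq.ne_zero⟩
  have h1 : (c : ZMod q) = modularCyclotomicCharacter Qbar
      (card_rootsOfUnity_eq_self q) (g : Qbar ≃+* Qbar) := by
    apply modularCyclotomicCharacter.unique
    intro t ht
    have ht' : (t : Qbar) ^ q = 1 := by
      rw [mem_rootsOfUnity] at ht
      rw [← Units.val_pow_eq_pow_val, ht, Units.val_one]
    rw [ZMod.val_natCast]
    change g (t : Qbar) = _
    rw [h _ ht']
    conv_lhs => rw [← Nat.div_add_mod c q, pow_add, pow_mul, ht', one_pow, one_mul]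
  exact h1.symm

theorem apply_eq_pow_cycloChar (g : GQ) {z : Qbar} (hz : z ^ q = 1) :
    g z = z ^ ((cycloChar q g : (ZMod q)ˣ) : ZMod q).val := by
  have hq : q.Prime := Fact.out
  have : NeZero q := ⟨hq.ne_zero⟩
  have hz0 : z ≠ 0 := by
    rintro rfl
    rw [zero_pow hq.ne_zero] at hz
    exact zero_ne_one hz
  have ht : Units.mk0 z hz0 ∈ rootsOfUnity q Qbar := by
    rw [mem_rootsOfUnity]
    apply Units.ext
    simpa using hz
  exact modularCyclotomicCharacter.spec (L := Qbar) (card_rootsOfUnity_eq_self q)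
    (g : Qbar ≃+* Qbar) ht

end Fermat.Agent.PT

end
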