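/-
S55 (Poitou-Tate), block R: norms from the totally (tamely) ramified local extension at `q` cut out by
the subfield `L` of degree `p` of `ℚ(ζ_q)`:  `c = N y  ⇒  c q^(-ord_q c)` is a `p`-th power mod `q`.
-/
import Fermat.Agent.PT.R.Char

set_option autoImplicit false

open ExtCitation

noncomputable section

namespace Fermat.Agent.PT

variable {p q : ℕ} [Fact p.Prime] [Fact q.Prime]

variable (ψ : (ZMod q)ˣ →* Multiplicative (ZMod p))

omit [Fact p.Prime] in
/-- `∏_{u ∈ (ℤ/q)^×} (1 - ζ^u) = q`. -/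
theorem TamePi_prod_units {ζ : Qbar} (hζ : IsPrimitiveRoot ζ q) :
    ∏ u : (ZMod q)ˣ, (1 - ζ ^ (u : ZMod q).val) = (q : Qbar) := by
  have hq : q.Prime := Fact.out
  have hq1 : q - 1 + 1 = q := Nat.succ_pred_eq_of_pos hq.pos
  have hζ' : IsPrimitiveRoot ζ (q - 1 + 1) := by rwa [hq1]
  have h1 := hζ'.prod_one_sub_pow_eq_order
  have h2 : ((q - 1 : ℕ) : Qbar) + 1 = (q : Qbar) := by
    rw [← Nat.cast_succ, Nat.succ_eq_add_one, hq1]
  rw [h2] at h1
  rw [← h1]
  symm
  have hne : ∀ k ∈ Finset.range (q - 1), ((k + 1 : ℕ) : ZMod q) ≠ 0 := by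
    intro k hk h0
    rw [ZMod.natCast_eq_zero_iff] at h0
    have := Nat.le_of_dvd (Nat.succ_pos k) h0
    have := Finset.mem_range.mp hk
    omega
  have hval : ∀ k ∈ Finset.range (q - 1), ((k + 1 : ℕ) : ZMod q).val = k + 1 := by
    intro k hk
    have := Finset.mem_range.mp hk
    exact ZMod.val_cast_of_lt (by omega)
  refine Finset.prod_bij (fun k hk => Units.mk0 ((k + 1 : ℕ) : ZMod q) (hne k hk))
    (fun _ _ => Finset.mem_univ _) ?_ ?_ ?_
  · intro a ha b hb hab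
    have h3 : ((a + 1 : ℕ) : ZMod q) = ((b + 1 : ℕ) : ZMod q) := congrArg Units.val hab
    have h4 := congrArg ZMod.val h3
    rw [hval a ha, hval b hb] at h4
    omega
  · intro u _
    have hu0 : (u : ZMod q).val ≠ 0 := by
      rw [Ne, ZMod.val_eq_zero]
      exact u.ne_zero
    have hult : (u : ZMod q).val < q := ZMod.val_lt _
    refine ⟨(u : ZMod q).val - 1, Finset.mem_range.mpr (by omega), Units.ext ?_⟩
    rw [Units.val_mk0, Nat.sub_add_cancel (Nat.pos_of_ne_zero hu0), ZMod.natCast_zmod_val]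
  · intro k hk
    rw [Units.val_mk0, hval k hk]

omit [Fact p.Prime] in
/-- the Galois action on `1 - ζ^u`. -/
theorem TamePi_apply {ζ : Qbar} (hζ : ζ ^ q = 1) (g : GQ) (u : (ZMod q)ˣ) :
    g (1 - ζ ^ (u : ZMod q).val) = 1 - ζ ^ ((u * cycloChar q g : (ZMod q)ˣ) : ZMod q).val := by
  rw [map_sub, map_one, map_pow, apply_eq_pow_cycloChar g hζ, ← pow_mul, Units.val_mul,
    ZMod.val_mul, ← pow_eq_pow_mod _ hζ, mul_comm]

/-- An element of `L` with norm `q`:  `π := ∏_{u ∈ ker ψ} (1 - ζ ^ u)`.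
* fixed by `g ∈ kerOf ⊤ (xq ψ)`: `g (1 - ζ^u) = 1 - ζ^(u s)`, `s = cycloChar q g ∈ ker ψ`
  (`apply_eq_pow_cycloChar`, `mem_kerOf_iff`, `xq_one`), reindex the product by `u ↦ u s`.
* `∏_{i<p} σ^i π = ∏_{i<p} ∏_{u ∈ ker ψ} (1 - ζ^(u s^i))`, `s = cycloChar q σ`, `ψ s ≠ 1`;
  `(i,u) ↦ u s^i` is a bijection `range p × ker ψ → (ZMod q)ˣ` (`ψ s` generates `ZMod p`), and
  `∏_{u : (ZMod q)ˣ} (1 - ζ^u) = ∏_{0<k<q} (1 - ζ^k) = Φ_q(1) = q`
  (`Polynomial.cyclotomic_prime`, `Polynomial.eval_one_cyclotomic_prime`,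
  `IsPrimitiveRoot` product formula `Polynomial.cyclotomic_eq_prod_X_sub_primitiveRoots`). -/
theorem exists_piL (hψ : Function.Surjective ψ) {σ : GQ} (hσ : xq ψ 1 σ ≠ 0) :
    ∃ π : Qbar, π ∈ IntermediateField.fixedField (kerOf ⊤ (xq ψ)) ∧
      ∏ i ∈ Finset.range p, (σ ^ i) π = (q : Qbar) := by
  classical
  have hp : p.Prime := Fact.out
  have hq : q.Prime := Fact.out
  have : NeZero q := ⟨hq.ne_zero⟩
  obtain ⟨ζ, hζ⟩ := HasEnoughRootsOfUnity.exists_primitiveRoot Qbar q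
  have hζ1 : ζ ^ q = 1 := hζ.pow_eq_one
  set e : (ZMod q)ˣ → Qbar := fun u => 1 - ζ ^ (u : ZMod q).val with he
  have hact : ∀ (g : GQ) (u : (ZMod q)ˣ), g (e u) = e (u * cycloChar q g) :=
    fun g u => TamePi_apply hζ1 g u
  -- translating a fibre of `ψ`
  have hfib : ∀ t : (ZMod q)ˣ, ∏ u ∈ Finset.univ.filter (fun u => ψ u = 1), e (u * t) =
      ∏ u ∈ Finset.univ.filter (fun u => ψ u = ψ t), e u := by
    intro t
    refine Finset.prod_bij (fun u _ => u * t) ?_ ?_ ?_ ?_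
    · intro u hu
      rw [Finset.mem_filter] at hu ⊢
      exact ⟨Finset.mem_univ _, by rw [map_mul, hu.2, one_mul]⟩
    · intro a _ b _ hab
      exact mul_right_cancel hab
    · intro u hu
      rw [Finset.mem_filter] at hu
      refine ⟨u * t⁻¹, ?_, by rw [inv_mul_cancel_right]⟩
      rw [Finset.mem_filter]
      exact ⟨Finset.mem_univ _, by rw [map_mul, map_inv, hu.2, mul_inv_cancel]⟩
    · intro u _
      rfl
  refine ⟨∏ u ∈ Finset.univ.filter (fun u => ψ u = 1), e u, ?_, ?_⟩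
  · rw [IntermediateField.mem_fixedField_iff]
    intro g hg
    have hg0 : xq ψ 1 g = 0 := ((mem_kerOf_iff (xq_mem_Z1 ψ)).mp hg).2
    rw [xq_one] at hg0
    have hg1 : ψ (cycloChar q g) = 1 := by
      rw [← ofAdd_toAdd (ψ (cycloChar q g)), hg0, ofAdd_zero]
    rw [map_prod]
    simp only [hact]
    rw [hfib, hg1]
  · set s := cycloChar q σ with hs
    have hs0 : Multiplicative.toAdd (ψ s) ≠ 0 := by
      rw [xq_one] at hσ
      exact hσ
    have h1 : ∀ i ∈ Finset.range p, (σ ^ i) (∏ u ∈ Finset.univ.filter (fun u => ψ u = 1), e u) =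
        ∏ u ∈ Finset.univ.filter (fun u => ψ u = (ψ s) ^ i), e u := by
      intro i _
      rw [map_prod]
      simp only [hact]
      rw [map_pow, ← hs, hfib, map_pow]
    rw [Finset.prod_congr rfl h1, ← TamePi_prod_units hζ,
      ← Finset.prod_fiberwise Finset.univ ψ e]
    refine Finset.prod_bij (fun i _ => (ψ s) ^ i) (fun _ _ => Finset.mem_univ _) ?_ ?_ ?_
    · intro a ha b hb hab
      have h2 : (a : ZMod p) * Multiplicative.toAdd (ψ s) = (b : ZMod p) * Multiplicative.toAdd (ψ s) := by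
        have := congrArg Multiplicative.toAdd hab
        simpa [toAdd_pow, nsmul_eq_mul] using this
      have h3 : (a : ZMod p) = (b : ZMod p) := mul_right_cancel₀ hs0 h2
      rw [ZMod.natCast_eq_natCast_iff'] at h3
      rwa [Nat.mod_eq_of_lt (Finset.mem_range.mp ha), Nat.mod_eq_of_lt (Finset.mem_range.mp hb)] at h3
    · intro j _
      refine ⟨(Multiplicative.toAdd j * (Multiplicative.toAdd (ψ s))⁻¹).val,
        Finset.mem_range.mpr (ZMod.val_lt _), ?_⟩
      apply Multiplicative.toAdd.injective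
      rw [toAdd_pow, nsmul_eq_mul, ZMod.natCast_zmod_val, inv_mul_cancel_right₀ hs0]
    · intro i _
      rfl

end Fermat.Agent.PT

end
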