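/-
S55 (Poitou-Tate), block R: decomposition and inertia groups versus the cyclotomic character mod `q`.
-/
import Fermat.Agent.PT.R.Char
import Fermat.Agent.PT.Global.Cyc.FrobQ
import Fermat.Agent.PT.Global.Cyc.RamP

set_option autoImplicit false

open ExtCitation
open scoped Pointwise

noncomputable section

namespace Fermat.Agent.PT

variable {q : ℕ} [Fact q.Prime]

/-- A Frobenius element at `𝒜 ∣ ℓ ≠ q` acts on `μ_q` by `z ↦ z ^ ℓ`.
Proof: `exists_dec_actsBy_of_ne (p := q) 𝒜 hℓ hne h𝒜` with `N = 1` + `cycloChar_eq_of_actsBy`. -/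
theorem exists_dec_cycloChar_of_ne (𝒜 : Place) {ℓ : ℕ} (hℓ : ℓ.Prime) (hne : ℓ ≠ q)
    (h𝒜 : 𝒜.LiesOverPrime ℓ) :
    ∃ d ∈ Dec 𝒜, ((cycloChar q d : (ZMod q)ˣ) : ZMod q) = (ℓ : ZMod q) := by
  obtain ⟨d, hd, hact⟩ := exists_dec_actsBy_of_ne (p := q) 𝒜 hℓ hne h𝒜
  refine ⟨d, hd, cycloChar_eq_of_actsBy fun z hz => hact 1 z ?_⟩
  rwa [pow_one]

/-- `q` is totally ramified in `ℚ(ζ_q)`: the decomposition group at `𝒜 ∣ q` surjects onto
`(ℤ/q)^×`.  Proof: copy `exists_dec_actsBy_p` (`PT/Global/Cyc/RamP.lean`, `k = 0`) with the exponent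
`1 + p` replaced by `u.val` (coprime to `q`), then `cycloChar_eq_of_actsBy` and `Units.ext`. -/
theorem exists_dec_cycloChar_of_over (𝒜 : Place) (h𝒜 : 𝒜.LiesOverPrime q) (u : (ZMod q)ˣ) :
    ∃ d ∈ Dec 𝒜, cycloChar q d = u := by
  have hp : q.Prime := Fact.out
  have : NeZero (q ^ (0 + 1)) := ⟨pow_ne_zero _ hp.ne_zero⟩
  obtain ⟨ζ, hζ⟩ := HasEnoughRootsOfUnity.exists_primitiveRoot Qbar (q ^ (0 + 1))
  have : IsCyclotomicExtension {q ^ (0 + 1)} ℚ (IntermediateField.adjoin ℚ {ζ}) :=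
    hζ.intermediateField_adjoin_isCyclotomicExtension ℚ
  have : NumberField (IntermediateField.adjoin ℚ {ζ}) :=
    IsCyclotomicExtension.numberField {q ^ (0 + 1)} ℚ _
  have : IsGalois ℚ (IntermediateField.adjoin ℚ {ζ}) :=
    IsCyclotomicExtension.isGalois {q ^ (0 + 1)} ℚ _
  set Ω := IntermediateField.adjoin ℚ {ζ} with hΩ
  let ζ' : Ω := ⟨ζ, IntermediateField.mem_adjoin_simple_self ℚ ζ⟩
  have hζ' : IsPrimitiveRoot ζ' (q ^ (0 + 1)) :=
    IsPrimitiveRoot.of_map_of_injective (f := algebraMap Ω Qbar) hζ (algebraMap Ω Qbar).injective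
  have hcop : ((u : ZMod q).val).Coprime (q ^ (0 + 1)) := by
    apply Nat.Coprime.pow_right
    exact ZMod.val_coe_unit_coprime u
  obtain ⟨s, hs⟩ := CFT.exists_aut_pow (pow_pos hp.pos _) hζ' hcop
  let P : Ideal (NumberField.RingOfIntegers Ω) :=
    (Lib.Frobenius.centre 𝒜).comap (CFT.Lift.toInt Qbar Ω)
  have hPprime : P.IsPrime := Ideal.comap_isPrime _ _
  have hAP : CFT.Lift.Above 𝒜 P := fun x => by
    rw [Ideal.mem_comap, Lib.Frobenius.mem_centre]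
    rfl
  have hpP : (q : NumberField.RingOfIntegers Ω) ∈ P := by
    rw [hAP]
    have : (q : Qbar) ∈ 𝒜.nonunits := h𝒜
    simpa using this
  have hsP : s • P = P := by
    have hprime' : (s • P).IsPrime := inferInstance
    refine ramP_unique 0 (s • P) P ?_ hpP
    have h1 := Ideal.smul_mem_pointwise_smul s _ P hpP
    have h2 : s • (q : NumberField.RingOfIntegers Ω) = (q : NumberField.RingOfIntegers Ω) :=
      map_natCast (MulSemiringAction.toRingHom (Ω ≃ₐ[ℚ] Ω) (NumberField.RingOfIntegers Ω) s) q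
    rwa [h2] at h1
  obtain ⟨g, hg, hgs⟩ := CFT.Lift.lift_decomposition 𝒜 hp h𝒜 P hAP s hsP
  refine ⟨g, hg, Units.ext ?_⟩
  have hgζ : g ζ = ζ ^ (u : ZMod q).val := by
    have h1 := CFT.Lift.restrict_apply (Ω := Ω) g ζ'
    rw [hgs, hs, map_pow] at h1
    exact h1.symm
  rw [cycloChar_eq_of_actsBy (c := (u : ZMod q).val) fun z hz => ?_, ZMod.natCast_zmod_val]
  have hz' : z ^ (q ^ (0 + 1)) = 1 := by simpa using hz
  obtain ⟨i, -, rfl⟩ := hζ.eq_pow_of_pow_eq_one hz'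
  rw [map_pow, hgζ, ← pow_mul, ← pow_mul, mul_comm]

/-- Inertia at `𝒜 ∤ q` acts trivially on `μ_q` (`Levels_inertia_fix_root`, `cycloChar_eq_of_actsBy`
with `c = 1`). -/
theorem Ine_le_G1_of_ne (𝒜 : Place) {ℓ : ℕ} (hℓ : ℓ.Prime) (hne : ℓ ≠ q)
    (h𝒜 : 𝒜.LiesOverPrime ℓ) : Ine 𝒜 ≤ G1 q := by
  have hq : q.Prime := Fact.out
  intro g hg
  rw [G1, MonoidHom.mem_ker]
  refine Units.ext ?_
  rw [cycloChar_eq_of_actsBy (c := 1) fun z hz => ?_]
  · simp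
  · rw [pow_one]
    exact Levels_inertia_fix_root 𝒜 hq.ne_zero ((Nat.coprime_primes hq hℓ).2 (Ne.symm hne)) h𝒜 hg hz

end Fermat.Agent.PT

end
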