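/-
S55 (Poitou-Tate), block R: the valuation of a place `𝒜 ∣ ℓ` of `Qbar` on rational numbers.
-/
import Fermat.Agent.PT.Gal.Setup

set_option autoImplicit false
set_option linter.unusedSectionVars false

noncomputable section

namespace Fermat.Agent.PT

/-- numerator and denominator of an `ℓ`-adic unit are prime to `ℓ`. -/
theorem ValQ_not_dvd_of_padicValRat_eq_zero {ℓ : ℕ} (hℓ : ℓ.Prime) {r : ℚ} (hr0 : r ≠ 0)
    (hr : padicValRat ℓ r = 0) : ¬ (ℓ : ℤ) ∣ r.num ∧ ¬ ℓ ∣ r.den := by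
  have : Fact ℓ.Prime := ⟨hℓ⟩
  have hA0 : r.num.natAbs ≠ 0 := Int.natAbs_ne_zero.2 (Rat.num_ne_zero.2 hr0)
  have hB0 : r.den ≠ 0 := r.den_nz
  have hcop : Nat.Coprime r.num.natAbs r.den := r.reduced
  have heq : padicValNat ℓ r.num.natAbs = padicValNat ℓ r.den := by
    have h1 : padicValRat ℓ r = (padicValNat ℓ r.num.natAbs : ℤ) - (padicValNat ℓ r.den : ℤ) := rfl
    omega
  have hnot : ¬ (ℓ ∣ r.num.natAbs ∧ ℓ ∣ r.den) := fun h =>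
    Nat.Prime.not_coprime_iff_dvd.2 ⟨ℓ, hℓ, h.1, h.2⟩ hcop
  constructor
  · intro h
    have h1 : ℓ ∣ r.num.natAbs := Int.natCast_dvd.1 h
    have h2 := one_le_padicValNat_of_dvd hA0 h1
    exact hnot ⟨h1, dvd_of_one_le_padicValNat (heq ▸ h2)⟩
  · intro h1
    have h2 := one_le_padicValNat_of_dvd hB0 h1
    exact hnot ⟨dvd_of_one_le_padicValNat (heq.symm ▸ h2), h1⟩

theorem ValQ_algebraMap_eq_div (r : ℚ) :
    algebraMap ℚ Qbar r = (r.num : Qbar) / (r.den : Qbar) := by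
  conv_lhs => rw [← Rat.num_div_den r]
  rw [map_div₀, map_intCast, map_natCast]

variable (𝒜 : Place) {ℓ : ℕ} (hℓ : ℓ.Prime) (h𝒜 : 𝒜.LiesOverPrime ℓ)
include hℓ h𝒜

theorem valuation_prime_lt_one : 𝒜.valuation (ℓ : Qbar) < 1 :=
  𝒜.mem_nonunits_iff.1 h𝒜

theorem valuation_prime_ne_zero : 𝒜.valuation (ℓ : Qbar) ≠ 0 :=
  (Valuation.ne_zero_iff _).2 (Nat.cast_ne_zero.2 hℓ.ne_zero)

/-- an integer in the maximal ideal of `𝒜` is divisible by `ℓ`. -/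
theorem dvd_of_valuation_intCast_lt_one {a : ℤ} (ha : 𝒜.valuation (a : Qbar) < 1) :
    (ℓ : ℤ) ∣ a :=
  Fermat.Agent.Lib.Frobenius.int_dvd_of_mem_nonunits 𝒜 hℓ h𝒜 (𝒜.mem_nonunits_iff.2 ha)

/-- an integer prime to `ℓ` is a unit of `𝒜` (`Lib.Frobenius.int_dvd_of_mem_nonunits`). -/
theorem valuation_intCast_eq_one {a : ℤ} (ha : ¬ (ℓ : ℤ) ∣ a) : 𝒜.valuation (a : Qbar) = 1 := by
  have h1 : 𝒜.valuation (a : Qbar) ≤ 1 := (𝒜.valuation_le_one_iff _).2 (intCast_mem 𝒜 a)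
  rcases lt_or_eq_of_le h1 with h | h
  · exact absurd (dvd_of_valuation_intCast_lt_one 𝒜 hℓ h𝒜 h) ha
  · exact h

theorem ValQ_valuation_unit {u : ℚ} (hu0 : u ≠ 0) (hu : padicValRat ℓ u = 0) :
    𝒜.valuation (algebraMap ℚ Qbar u) = 1 := by
  obtain ⟨h1, h2⟩ := ValQ_not_dvd_of_padicValRat_eq_zero hℓ hu0 hu
  have h2' : ¬ (ℓ : ℤ) ∣ (u.den : ℤ) := fun h => h2 (Int.natCast_dvd_natCast.1 h)
  have h3 := valuation_intCast_eq_one 𝒜 hℓ h𝒜 h1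
  have h4 := valuation_intCast_eq_one 𝒜 hℓ h𝒜 h2'
  rw [Int.cast_natCast] at h4
  rw [ValQ_algebraMap_eq_div, map_div₀, h3, h4, div_one]

/-- `c = ℓ ^ n * (a / b)`, `a b` prime to `ℓ`. -/
theorem valuation_algebraMap_rat {c : ℚ} (hc : c ≠ 0) :
    𝒜.valuation (algebraMap ℚ Qbar c) = 𝒜.valuation (ℓ : Qbar) ^ (padicValRat ℓ c) := by
  have : Fact ℓ.Prime := ⟨hℓ⟩
  have hℓ0 : (ℓ : ℚ) ≠ 0 := Nat.cast_ne_zero.2 hℓ.ne_zero
  have hz0 : (ℓ : ℚ) ^ (padicValRat ℓ c) ≠ 0 := zpow_ne_zero _ hℓ0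
  have hu0 : c / (ℓ : ℚ) ^ (padicValRat ℓ c) ≠ 0 := div_ne_zero hc hz0
  have hu : padicValRat ℓ (c / (ℓ : ℚ) ^ (padicValRat ℓ c)) = 0 := by
    rw [padicValRat.div hc hz0, padicValRat.zpow, padicValRat.self hℓ.one_lt, mul_one, sub_self]
  have h1 := ValQ_valuation_unit 𝒜 hℓ h𝒜 hu0 hu
  have h2 : c = (ℓ : ℚ) ^ (padicValRat ℓ c) * (c / (ℓ : ℚ) ^ (padicValRat ℓ c)) := by
    field_simp
  conv_lhs => rw [h2]
  rw [map_mul, map_mul, h1, mul_one, map_zpow₀, map_zpow₀, map_natCast]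

theorem zpow_valuation_prime_injective {a b : ℤ}
    (h : 𝒜.valuation (ℓ : Qbar) ^ a = 𝒜.valuation (ℓ : Qbar) ^ b) : a = b :=
  zpow_right_injective₀ (zero_lt_iff.2 (valuation_prime_ne_zero 𝒜 hℓ h𝒜))
    (valuation_prime_lt_one 𝒜 hℓ h𝒜).ne h

/-- reduction mod `ℓ` of an `ℓ`-adic unit `r ∈ ℚ`: if `r ≡ a` modulo the maximal ideal of `𝒜`
(`a : ℤ`) then `(r : ZMod ℓ) = a` (`Rat.cast_def`, `r.den` prime to `ℓ`, clear denominators and use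
`dvd_of_valuation_intCast_lt_one`). -/
theorem ratCast_zmod_eq_of_close [Fact ℓ.Prime] {r : ℚ} (hr : padicValRat ℓ r = 0) (hr0 : r ≠ 0)
    {a : ℤ} (h : 𝒜.valuation (algebraMap ℚ Qbar r - (a : Qbar)) < 1) :
    ((r : ℚ) : ZMod ℓ) = (a : ZMod ℓ) := by
  obtain ⟨-, h2⟩ := ValQ_not_dvd_of_padicValRat_eq_zero hℓ hr0 hr
  have hden : ((r.den : ℕ) : ZMod ℓ) ≠ 0 := by
    rw [Ne, ZMod.natCast_eq_zero_iff]
    exact h2
  have hdenQ : ((r.den : ℕ) : Qbar) ≠ 0 := Nat.cast_ne_zero.2 r.den_nz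
  have h3 : ((r.num - a * r.den : ℤ) : Qbar)
      = (r.den : Qbar) * (algebraMap ℚ Qbar r - (a : Qbar)) := by
    rw [ValQ_algebraMap_eq_div]
    push_cast
    field_simp
  have h4 : 𝒜.valuation ((r.num - a * r.den : ℤ) : Qbar) < 1 := by
    rw [h3, map_mul]
    have h5 : 𝒜.valuation ((r.den : ℕ) : Qbar) ≤ 1 :=
      (𝒜.valuation_le_one_iff _).2 (natCast_mem 𝒜 _)
    exact Right.mul_lt_one_of_le_of_lt h5 h
  have h6 := dvd_of_valuation_intCast_lt_one 𝒜 hℓ h𝒜 h4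
  have h7 : ((r.num - a * r.den : ℤ) : ZMod ℓ) = 0 := (ZMod.intCast_zmod_eq_zero_iff_dvd _ _).2 h6
  push_cast at h7
  rw [Rat.cast_def, div_eq_iff hden]
  exact sub_eq_zero.1 h7

end Fermat.Agent.PT

end
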