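/-
S55 (Poitou-Tate), block R: norms from the totally (tamely) ramified local extension at `q` cut out by
the subfield `L` of degree `p` of `ℚ(ζ_q)`:  `c = N y  ⇒  c q^(-ord_q c)` is a `p`-th power mod `q`.
-/
import Fermat.Agent.PT.R.Dec
import Fermat.Agent.PT.R.ValQ
import Fermat.Agent.PT.Hens.Kh

set_option autoImplicit false

open ExtCitation NumberField IsDedekindDomain Fermat.Agent.CFT

noncomputable section

namespace Fermat.Agent.PT

variable {p q : ℕ} [Fact p.Prime] [Fact q.Prime]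

/-- `x` is congruent to a rational integer modulo the maximal ideal of `𝒜`. -/
def TameRes.C (𝒜 : Place) (x : Qbar) : Prop := ∃ a : ℤ, 𝒜.valuation (x - (a : Qbar)) < 1

theorem TameRes.val_int_le (𝒜 : Place) (a : ℤ) : 𝒜.valuation (a : Qbar) ≤ 1 :=
  (𝒜.valuation_le_one_iff _).mpr (intCast_mem 𝒜 a)

theorem TameRes.C_int (𝒜 : Place) (a : ℤ) : TameRes.C 𝒜 (a : Qbar) :=
  ⟨a, by rw [sub_self, map_zero]; exact zero_lt_one⟩

theorem TameRes.C.le_one {𝒜 : Place} {x : Qbar} (hx : TameRes.C 𝒜 x) : 𝒜.valuation x ≤ 1 := by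
  obtain ⟨a, ha⟩ := hx
  have h : x = (x - (a : Qbar)) + (a : Qbar) := by ring
  rw [h]
  exact Valuation.map_add_le _ ha.le (TameRes.val_int_le 𝒜 a)

theorem TameRes.C.add {𝒜 : Place} {x y : Qbar} (hx : TameRes.C 𝒜 x) (hy : TameRes.C 𝒜 y) :
    TameRes.C 𝒜 (x + y) := by
  obtain ⟨a, ha⟩ := hx
  obtain ⟨b, hb⟩ := hy
  refine ⟨a + b, ?_⟩
  have h : x + y - ((a + b : ℤ) : Qbar) = (x - (a : Qbar)) + (y - (b : Qbar)) := by
    push_cast; ring
  rw [h]
  exact Valuation.map_add_lt _ ha hb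

theorem TameRes.C.mul {𝒜 : Place} {x y : Qbar} (hx : TameRes.C 𝒜 x) (hy : TameRes.C 𝒜 y) :
    TameRes.C 𝒜 (x * y) := by
  have hy1 := hy.le_one
  obtain ⟨a, ha⟩ := hx
  obtain ⟨b, hb⟩ := hy
  refine ⟨a * b, ?_⟩
  have h : x * y - ((a * b : ℤ) : Qbar) = (x - (a : Qbar)) * y + (a : Qbar) * (y - (b : Qbar)) := by
    push_cast; ring
  rw [h]
  refine Valuation.map_add_lt _ ?_ ?_
  · rw [map_mul]
    exact mul_lt_one_of_lt_of_le ha hy1
  · rw [map_mul, mul_comm]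
    exact mul_lt_one_of_lt_of_le hb (TameRes.val_int_le 𝒜 a)

theorem TameRes.C.of_close {𝒜 : Place} {x y : Qbar} (hy : TameRes.C 𝒜 y)
    (h : 𝒜.valuation (x - y) < 1) : TameRes.C 𝒜 x := by
  obtain ⟨b, hb⟩ := hy
  refine ⟨b, ?_⟩
  have h' : x - (b : Qbar) = (x - y) + (y - (b : Qbar)) := by ring
  rw [h']
  exact Valuation.map_add_lt _ h hb

omit [Fact q.Prime] in
theorem TameRes.val_q_lt {𝒜 : Place} (h𝒜 : 𝒜.LiesOverPrime q) : 𝒜.valuation (q : Qbar) < 1 :=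
  (ValuationSubring.mem_nonunits_iff 𝒜).mp h𝒜

theorem TameRes.C.inv {𝒜 : Place} (h𝒜 : 𝒜.LiesOverPrime q) {x : Qbar} (hx : TameRes.C 𝒜 x)
    (hx1 : 𝒜.valuation x = 1) : TameRes.C 𝒜 x⁻¹ := by
  have hq : q.Prime := Fact.out
  obtain ⟨a, ha⟩ := hx
  have hx0 : x ≠ 0 := by
    intro h0
    rw [h0, map_zero] at hx1
    exact zero_ne_one hx1
  have hva : 𝒜.valuation (a : Qbar) = 1 := by
    have h : (a : Qbar) = x - (x - (a : Qbar)) := by ring
    rw [h, Valuation.map_sub_eq_of_lt_left _ (by rw [hx1]; exact ha), hx1]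
  have hndvd : ¬ (q : ℤ) ∣ a := by
    rintro ⟨k, rfl⟩
    have : 𝒜.valuation (((q : ℤ) * k : ℤ) : Qbar) < 1 := by
      push_cast
      rw [map_mul]
      exact mul_lt_one_of_lt_of_le (TameRes.val_q_lt h𝒜) (TameRes.val_int_le 𝒜 k)
    rw [hva] at this
    exact lt_irrefl _ this
  have hcop : IsCoprime a (q : ℤ) :=
    ((Nat.prime_iff_prime_int.mp hq).coprime_iff_not_dvd.mpr hndvd).symm
  obtain ⟨b, k, hbk⟩ := hcop
  refine ⟨b, ?_⟩
  have h : x⁻¹ - (b : Qbar) = x⁻¹ * ((k : Qbar) * (q : Qbar) - (b : Qbar) * (x - (a : Qbar))) := by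
    have h1 : (b : Qbar) * (a : Qbar) + (k : Qbar) * (q : Qbar) = 1 := by exact_mod_cast hbk
    field_simp
    linear_combination -h1
  rw [h, map_mul, map_inv₀, hx1, inv_one, one_mul]
  refine Valuation.map_sub_lt _ ?_ ?_
  · rw [map_mul, mul_comm]
    exact mul_lt_one_of_lt_of_le (TameRes.val_q_lt h𝒜) (TameRes.val_int_le 𝒜 k)
  · rw [map_mul, mul_comm]
    exact mul_lt_one_of_lt_of_le ha (TameRes.val_int_le 𝒜 b)

/-- `|ζ - 1| < 1` for a `q`-th root of unity at a place over `q`. -/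
theorem TameRes.val_zeta_sub_one {𝒜 : Place} (h𝒜 : 𝒜.LiesOverPrime q) {ζ : Qbar} (hζ : ζ ^ q = 1) :
    𝒜.valuation (ζ - 1) < 1 := by
  have hq : q.Prime := Fact.out
  have hζv : 𝒜.valuation ζ = 1 := by
    have h := congrArg 𝒜.valuation hζ
    rw [map_pow, map_one] at h
    exact (pow_eq_one_iff_of_nonneg zero_le hq.ne_zero).mp h
  have hmem : ζ - 1 ∈ 𝒜 := by
    rw [← 𝒜.valuation_le_one_iff]
    exact Valuation.map_sub_le _ hζv.le (by rw [map_one])
  obtain ⟨r, hr⟩ := exists_add_pow_prime_eq hq (⟨ζ - 1, hmem⟩ : 𝒜) 1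
  have hr' := congrArg (Subtype.val : 𝒜 → Qbar) hr
  simp only [MulMemClass.coe_mul, AddMemClass.coe_add, SubmonoidClass.coe_pow, OneMemClass.coe_one,
    sub_add_cancel, one_pow, mul_one, hζ] at hr'
  have hcast : (((q : ℕ) : 𝒜) : Qbar) = (q : Qbar) := by simp
  rw [hcast] at hr'
  have h2 : (ζ - 1) ^ q = -((q : Qbar) * (ζ - 1) * (r : Qbar)) := by linear_combination -hr'
  have h3 : 𝒜.valuation (ζ - 1) ^ q < 1 := by
    rw [← map_pow, h2, Valuation.map_neg, map_mul, map_mul]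
    refine mul_lt_one_of_lt_of_le (mul_lt_one_of_lt_of_le (TameRes.val_q_lt h𝒜) ?_) ?_
    · exact (𝒜.valuation_le_one_iff _).mpr hmem
    · exact (𝒜.valuation_le_one_iff _).mpr r.2
  by_contra hcon
  exact absurd h3 (not_lt.mpr (one_le_pow₀ (not_lt.mp hcon)))

theorem TameRes.C_zeta {𝒜 : Place} (h𝒜 : 𝒜.LiesOverPrime q) {ζ : Qbar} (hζ : ζ ^ q = 1) :
    TameRes.C 𝒜 ζ :=
  ⟨1, by simpa using TameRes.val_zeta_sub_one h𝒜 hζ⟩

/-- The residue field of the henselisation of `ℚ(ζ_q)` at `𝒜 ∣ q` is `𝔽_q`.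
Proof.  `N := adjoin ℚ {ζ}`, `Vof N = G1 q`, `u ∈ kh N 𝒜`; density (`exists_close_of_mem_kh` with
`c = 1`) gives `y₀ : N` with `|u - y₀| < 1`, so `y₀ ∈ 𝒜`, `0 ≤ ord (plOf N 𝒜 h) y₀`
(`ord_plOf_nonneg_iff`), `y₀ = a₀ / b₀` with `a₀ b₀ : 𝓞 N`, `b₀ ∉` the prime (`CFT.exists_div_not_mem`).
Every element of `𝓞 N = ℤ[ζ]` is congruent to an integer modulo `(ζ - 1)`
(`IsCyclotomicExtension.Rat.isIntegralClosure_adjoin_singleton_of_prime` / `IsPrimitiveRoot.integralPowerBasis`: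
write it as a polynomial in `ζ` and evaluate at `1`), and `|ζ - 1| < 1` (as `∏_{0<i<q} (1 - ζ^i) = q`, or
`(ζ-1)^q ≡ ζ^q - 1 = 0` mod `q`).  So `a₀ ≡ a₁`, `b₀ ≡ b₁ ∈ ℤ`, `q ∤ b₁`; choose `b₂` with
`b₁ b₂ ≡ 1 mod q`; `a := a₁ b₂`. -/
theorem exists_int_close (𝒜 : Place) (h𝒜 : 𝒜.LiesOverPrime q) {u : Qbar}
    (hu : u ∈ IntermediateField.fixedField (G1 q ⊓ Dec 𝒜)) (huA : u ∈ 𝒜) :
    ∃ a : ℤ, 𝒜.valuation (u - (a : Qbar)) < 1 := by
  have hq : q.Prime := Fact.out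
  have : NeZero q := ⟨hq.ne_zero⟩
  have hfin : 𝒜.IsFin := ⟨⟨q, hq⟩, h𝒜⟩
  set ζ : Qbar := (zetaP q : Qbar) with hζdef
  have hζ : IsPrimitiveRoot ζ q := IsPrimitiveRoot.coe_units_iff.mpr (zetaP_spec q)
  set N : IntermediateField ℚ Qbar := IntermediateField.adjoin ℚ {ζ} with hN
  have hcyc : IsCyclotomicExtension {q} ℚ N := hζ.intermediateField_adjoin_isCyclotomicExtension ℚ
  have hfd : FiniteDimensional ℚ N :=
    IntermediateField.adjoin.finiteDimensional (Algebra.IsIntegral.isIntegral ζ)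
  have hnf : NumberField N := numberField_of_finiteDimensional N
  let ζ0 : N := ⟨ζ, IntermediateField.mem_adjoin_simple_self ℚ ζ⟩
  have hζ0 : IsPrimitiveRoot ζ0 q := by
    have : IsPrimitiveRoot (algebraMap N Qbar ζ0) q := hζ
    exact this.of_map_of_injective (algebraMap N Qbar).injective
  have hV : Vof N ≤ G1 q := (le_G1_iff q).mpr fun v hv => hv ζ0
  have hukh : u ∈ kh N 𝒜 := IntermediateField.fixedField_le (inf_le_inf_right _ hV) hu
  obtain ⟨y, hy⟩ := exists_close_of_mem_kh (N := N) hfin hukh (one_ne_zero)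
  rw [map_one] at hy
  -- integers of `N`
  have hint : ∀ x : 𝓞 N, TameRes.C 𝒜 (algebraMap N Qbar (x : N)) := by
    intro x
    have hcl := IsCyclotomicExtension.Rat.isIntegralClosure_adjoin_singleton_of_prime hζ0
    obtain ⟨z, hz⟩ := hcl.isIntegral_iff.mp (RingOfIntegers.isIntegral_coe x)
    have hz' : (x : N) ∈ Algebra.adjoin ℤ ({ζ0} : Set N) := by
      have hz2 : (x : N) = (z : N) := hz.symm
      rw [hz2]; exact z.2
    refine Algebra.adjoin_induction (p := fun w _ => TameRes.C 𝒜 (algebraMap N Qbar w))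
      ?_ ?_ ?_ ?_ hz'
    · intro w hw
      rw [Set.mem_singleton_iff] at hw
      subst hw
      exact TameRes.C_zeta h𝒜 hζ.pow_eq_one
    · intro n
      have : algebraMap N Qbar (algebraMap ℤ N n) = (n : Qbar) := by simp
      rw [this]
      exact TameRes.C_int 𝒜 n
    · intro w w' _ _ hw hw'
      rw [map_add]
      exact hw.add hw'
    · intro w w' _ _ hw hw'
      rw [map_mul]
      exact hw.mul hw'
  refine TameRes.C.of_close ?_ hy
  have hyA : algebraMap N Qbar y ∈ 𝒜 := by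
    have h : algebraMap N Qbar y = u - (u - algebraMap N Qbar y) := by ring
    rw [h]
    exact 𝒜.sub_mem huA ((𝒜.valuation_le_one_iff _).mp hy.le)
  by_cases hy0 : y = 0
  · rw [hy0, map_zero]
    simpa using TameRes.C_int 𝒜 0
  obtain ⟨a, b, hb, hab⟩ := exists_div_not_mem _ ((ord_plOf_nonneg_iff hfin hy0).mpr hyA)
  rw [hab, map_div₀, div_eq_mul_inv]
  refine (hint a).mul ((hint b).inv h𝒜 ?_)
  rw [mem_plOf hfin, ValuationSubring.mem_nonunits_iff, not_lt] at hb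
  exact le_antisymm (hint b).le_one hb

end Fermat.Agent.PT

end
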