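/-
S55 (Poitou-Tate), block R: norms from the totally (tamely) ramified local extension at `q` cut out by
the subfield `L` of degree `p` of `ℚ(ζ_q)`:  `c = N y  ⇒  c q^(-ord_q c)` is a `p`-th power mod `q`.
-/
import Fermat.Agent.PT.R.TameRes
import Fermat.Agent.PT.R.TamePi

set_option autoImplicit false

open ExtCitation NumberField IsDedekindDomain Fermat.Agent.CFT

noncomputable section

namespace Fermat.Agent.PT

variable {p q : ℕ} [Fact p.Prime] [Fact q.Prime]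

variable (ψ : (ZMod q)ˣ →* Multiplicative (ZMod p))

/-- congruences modulo the maximal ideal of `𝒜` multiply. -/
theorem Tame.mul_close (𝒜 : Place) {x x' a a' : Qbar} (hx : x ∈ 𝒜) (ha' : a' ∈ 𝒜)
    (h : 𝒜.valuation (x - a) < 1) (h' : 𝒜.valuation (x' - a') < 1) :
    𝒜.valuation (x * x' - a * a') < 1 := by
  have e : x * x' - a * a' = x * (x' - a') + (x - a) * a' := by ring
  rw [e]
  refine lt_of_le_of_lt (Valuation.map_add _ _ _) (max_lt ?_ ?_)
  · rw [map_mul]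
    exact mul_lt_one_of_nonneg_of_lt_one_right ((𝒜.valuation_le_one_iff x).mpr hx) zero_le h'
  · rw [map_mul]
    exact mul_lt_one_of_nonneg_of_lt_one_left zero_le h ((𝒜.valuation_le_one_iff a').mpr ha')

/-- **Tame norms.**  Proof.  `n := padicValRat q c`, `π` from `exists_piL`.  `|y|^p = |c| = |q|^n`,
`|π|^p = |q|` (`valuation_apply_of_mem_Dec`, `valuation_algebraMap_rat`), so `|y| = |π|^n`
(`p`-th roots are unique in a linearly ordered group with zero: `pow_left_injective`-type lemma).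
`u := y / π^n` is a unit of `𝒜`, lies in `fixedField (kerOf ⊤ (xq ψ) ⊓ Dec 𝒜) ≤
fixedField (G1 q ⊓ Dec 𝒜)` (`G1_le_kerOf`).  `exists_int_close` gives `a : ℤ`, `|u - a| < 1`;
`|σ^i u - a| = |σ^i (u - a)| < 1`, so `|∏ σ^i u - a^p| < 1` (induction: `x ≡ a`, `x' ≡ a'`, all in
`𝒜` ⇒ `x x' ≡ a a'`).  `∏ σ^i u = c / q^n = algebraMap (c * q^(-n))`.  Conclude with
`ratCast_zmod_eq_of_close` (for the integer `a ^ p`). -/
theorem tame_norm (hψ : Function.Surjective ψ) (𝒜 : Place) (h𝒜 : 𝒜.LiesOverPrime q) {σ : GQ}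
    (hσ : σ ∈ Dec 𝒜) (hσ1 : xq ψ 1 σ ≠ 0) {y : Qbar}
    (hy : y ∈ IntermediateField.fixedField (kerOf ⊤ (xq ψ) ⊓ Dec 𝒜)) {c : ℚ} (hc : c ≠ 0)
    (hN : ∏ i ∈ Finset.range p, (σ ^ i) y = algebraMap ℚ Qbar c) :
    ∃ a : ZMod q, ((c * (q : ℚ) ^ (-padicValRat q c) : ℚ) : ZMod q) = a ^ p := by
  have hq : q.Prime := Fact.out
  have hp : p.Prime := Fact.out
  set n := padicValRat q c with hn
  obtain ⟨π, hπ, hπN⟩ := exists_piL ψ hψ hσ1
  have hvi : ∀ (i : ℕ) (x : Qbar), 𝒜.valuation ((σ ^ i) x) = 𝒜.valuation x := fun i x =>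
    valuation_apply_of_mem_Dec (pow_mem hσ i) x
  have hq0 : 𝒜.valuation (q : Qbar) ≠ 0 := valuation_prime_ne_zero 𝒜 hq h𝒜
  have hvy : 𝒜.valuation y ^ p = 𝒜.valuation (q : Qbar) ^ n := by
    have h1 := congrArg 𝒜.valuation hN
    rw [map_prod, valuation_algebraMap_rat 𝒜 hq h𝒜 hc, Finset.prod_congr rfl (fun i _ => hvi i y),
      Finset.prod_const, Finset.card_range] at h1
    exact h1
  have hvπ : 𝒜.valuation π ^ p = 𝒜.valuation (q : Qbar) := by
    have h1 := congrArg 𝒜.valuation hπN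
    rw [map_prod, Finset.prod_congr rfl (fun i _ => hvi i π), Finset.prod_const,
      Finset.card_range] at h1
    exact h1
  have hvπ0 : 𝒜.valuation π ≠ 0 := by
    intro h0
    rw [h0, zero_pow hp.ne_zero] at hvπ
    exact hq0 hvπ.symm
  have hπ0 : π ≠ 0 := (Valuation.ne_zero_iff _).mp hvπ0
  have hvyπ : 𝒜.valuation y = 𝒜.valuation π ^ n := by
    have h1 : 𝒜.valuation y ^ p = (𝒜.valuation π ^ n) ^ p := by
      rw [hvy, ← hvπ, ← zpow_natCast, ← zpow_natCast, ← zpow_mul, ← zpow_mul, mul_comm]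
    exact (pow_left_inj₀ zero_le zero_le hp.ne_zero).mp h1
  set u := y / π ^ n with hu
  have hu1 : 𝒜.valuation u = 1 := by
    rw [hu, map_div₀, map_zpow₀, hvyπ, div_self (zpow_ne_zero _ hvπ0)]
  have huA : u ∈ 𝒜 := (𝒜.valuation_le_one_iff u).mp hu1.le
  have hufix : u ∈ IntermediateField.fixedField (G1 q ⊓ Dec 𝒜) := by
    rw [IntermediateField.mem_fixedField_iff] at hy hπ ⊢
    intro g hg
    have hgk : g ∈ kerOf ⊤ (xq ψ) := G1_le_kerOf ψ hg.1
    rw [hu, map_div₀, map_zpow₀, hy g ⟨hgk, hg.2⟩, hπ g hgk]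
  obtain ⟨a, ha⟩ := exists_int_close 𝒜 h𝒜 hufix huA
  have haA : (a : Qbar) ∈ 𝒜 := intCast_mem 𝒜 a
  have hiA : ∀ i : ℕ, (σ ^ i) u ∈ 𝒜 := fun i =>
    (𝒜.valuation_le_one_iff _).mp (by rw [hvi, hu1])
  have hia : ∀ i : ℕ, 𝒜.valuation ((σ ^ i) u - (a : Qbar)) < 1 := by
    intro i
    have e : (σ ^ i) u - (a : Qbar) = (σ ^ i) (u - (a : Qbar)) := by
      rw [map_sub, map_intCast]
    rw [e, hvi]
    exact ha
  have hprod : ∀ m : ℕ, 𝒜.valuation (∏ i ∈ Finset.range m, (σ ^ i) u - (a : Qbar) ^ m) < 1 := by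
    intro m
    induction m with
    | zero => simp
    | succ m ih =>
      rw [Finset.prod_range_succ, pow_succ]
      exact Tame.mul_close 𝒜 (prod_mem fun i _ => hiA i) haA ih (hia m)
  have hqQ : (q : ℚ) ≠ 0 := Nat.cast_ne_zero.mpr hq.ne_zero
  have hNu : ∏ i ∈ Finset.range p, (σ ^ i) u = algebraMap ℚ Qbar (c * (q : ℚ) ^ (-n)) := by
    have e : ∀ i : ℕ, (σ ^ i) u = (σ ^ i) y / ((σ ^ i) π) ^ n := by
      intro i
      rw [hu, map_div₀, map_zpow₀]
    simp_rw [e]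
    rw [Finset.prod_div_distrib, Finset.prod_zpow, hN, hπN, map_mul, map_zpow₀, map_natCast,
      zpow_neg, div_eq_mul_inv]
  have hr0 : c * (q : ℚ) ^ (-n) ≠ 0 := mul_ne_zero hc (zpow_ne_zero _ hqQ)
  have hr : padicValRat q (c * (q : ℚ) ^ (-n)) = 0 := by
    rw [padicValRat.mul hc (zpow_ne_zero _ hqQ), padicValRat.zpow, padicValRat.self hq.one_lt,
      ← hn]
    ring
  have hfin := ratCast_zmod_eq_of_close 𝒜 hq h𝒜 (r := c * (q : ℚ) ^ (-n)) hr hr0 (a := a ^ p) (by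
    rw [← hNu]
    push_cast
    exact hprod p)
  exact ⟨(a : ZMod q), by rw [hfin]; push_cast; rfl⟩

end Fermat.Agent.PT

end
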