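/-
S55 (Poitou-Tate), block R: norms from the (unramified) local extension cut out by a subfield of
`ℚ(ζ_q)` at a place `𝒜 ∣ ℓ ≠ q` have valuation divisible by `p`.
-/
import Fermat.Agent.PT.R.Dec
import Fermat.Agent.PT.R.ValQ
import Fermat.Agent.PT.Hens.Kh
import Fermat.Agent.PT.Hens.RestrictIne

set_option autoImplicit false

open ExtCitation NumberField IsDedekindDomain Fermat.Agent.CFT

noncomputable section

namespace Fermat.Agent.PT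

variable {q : ℕ} [Fact q.Prime]

/-- the place of `ℚ` below `𝒜 ∣ ℓ` is `(ℓ)`. -/
theorem Unram_ord_plOf_rat (𝒜 : Place) {ℓ : ℕ} (hℓ : ℓ.Prime) (h𝒜 : 𝒜.LiesOverPrime ℓ)
    (h : 𝒜.IsFin) : ord (plOf ℚ 𝒜 h) (ℓ : ℚ) = 1 := by
  have hideal : (plOf ℚ 𝒜 h).asIdeal = Ideal.span {(ℓ : 𝓞 ℚ)} := by
    apply le_antisymm
    · intro x hx
      rw [mem_plOf h] at hx
      obtain ⟨a, rfl⟩ := Rat.ringOfIntegersEquiv.symm.surjective x
      have h1 : Rat.ringOfIntegersEquiv.symm a = (a : 𝓞 ℚ) := by simp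
      rw [h1] at hx ⊢
      have h2 : algebraMap ℚ Qbar (((a : 𝓞 ℚ) : 𝓞 ℚ) : ℚ) = (a : Qbar) := by simp
      rw [h2] at hx
      obtain ⟨b, rfl⟩ := Lib.Frobenius.int_dvd_of_mem_nonunits 𝒜 hℓ h𝒜 hx
      rw [Ideal.mem_span_singleton]
      exact ⟨(b : 𝓞 ℚ), by push_cast; rfl⟩
    · rw [Ideal.span_singleton_le_iff_mem, mem_plOf h]
      have h2 : algebraMap ℚ Qbar (((ℓ : 𝓞 ℚ) : 𝓞 ℚ) : ℚ) = (ℓ : Qbar) := by simp
      rw [h2]
      exact h𝒜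
  have hne : (ℓ : 𝓞 ℚ) ≠ 0 := Nat.cast_ne_zero.mpr hℓ.ne_zero
  have h1 := (plOf ℚ 𝒜 h).intValuation_singleton hne hideal
  have h2 : (plOf ℚ 𝒜 h).valuation ℚ (ℓ : ℚ) = WithZero.exp (-1) := by
    rw [← h1, ← (plOf ℚ 𝒜 h).valuation_of_algebraMap (K := ℚ) (ℓ : 𝓞 ℚ)]
    congr 1
  unfold ord
  rw [h2, WithZero.log_exp]
  simp

/-- an automorphism fixing `ζ` fixes `ℚ(ζ)`. -/
theorem Unram_mem_Vof_adjoin {ζ : Qbar} {g : GQ} (hg : g ζ = ζ) :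
    g ∈ Vof (IntermediateField.adjoin ℚ {ζ}) := by
  have h1 : (g : Qbar →ₐ[ℚ] Qbar).comp (IntermediateField.adjoin ℚ {ζ}).val
      = (IntermediateField.adjoin ℚ {ζ}).val := by
    apply IntermediateField.adjoin_algHom_ext
    intro x hx
    rw [Set.mem_singleton_iff] at hx
    subst hx
    exact hg
  intro x
  exact DFunLike.congr_fun h1 x

/-- The value group of the henselisation of `ℚ(ζ_q)` at `𝒜 ∣ ℓ ≠ q` is generated by `|ℓ|`.
Proof.  `ζ` a primitive `q`-th root of unity in `Qbar`, `N := IntermediateField.adjoin ℚ {ζ}` (number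
field, Galois over `ℚ`, see `PT/Global/Cyc/RamP.lean` for the instances), `Vof N = G1 q`
(`apply_eq_pow_cycloChar`, `cycloChar_eq_of_actsBy`).  So `y ∈ kh N 𝒜`;
`exists_valuation_eq_of_mem_kh` gives `y₀ : Nˣ` with the same valuation.  `w := plOf N 𝒜 h`,
`v := plOf ℚ 𝒜 h`, `Above w v` (`above_plOf_plOf`), `Unram ℚ w` by `unram_plOf_iff` and
`Ine_le_G1_of_ne`.  `ord w (algebraMap ℚ N ℓ) = ord v ℓ = 1` (`CFT.ord_algebraMap_of_unram`; `ord v ℓ = 1`: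
`v` is the place `(ℓ)` of `ℚ`; alternatively avoid `ord v`: `ramificationIdx = 1`).  With
`n := ord w y₀`: `ord w (y₀ / ℓ ^ n) = 0`, hence the valuations agree (`ord_plOf_eq_iff`). -/
theorem exists_valuation_eq_zpow_of_unram (𝒜 : Place) {ℓ : ℕ} (hℓ : ℓ.Prime) (hne : ℓ ≠ q)
    (h𝒜 : 𝒜.LiesOverPrime ℓ) {y : Qbar}
    (hy : y ∈ IntermediateField.fixedField (G1 q ⊓ Dec 𝒜)) (hy0 : y ≠ 0) :
    ∃ n : ℤ, 𝒜.valuation y = 𝒜.valuation (ℓ : Qbar) ^ n := by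
  have hq : q.Prime := Fact.out
  have h : 𝒜.IsFin := ⟨⟨ℓ, hℓ⟩, h𝒜⟩
  have : NeZero q := ⟨hq.ne_zero⟩
  obtain ⟨ζ, hζ⟩ := HasEnoughRootsOfUnity.exists_primitiveRoot Qbar q
  have : IsCyclotomicExtension {q} ℚ (IntermediateField.adjoin ℚ {ζ}) :=
    hζ.intermediateField_adjoin_isCyclotomicExtension ℚ
  have : NumberField (IntermediateField.adjoin ℚ {ζ}) :=
    IsCyclotomicExtension.numberField {q} ℚ _
  have : IsGalois ℚ (IntermediateField.adjoin ℚ {ζ}) :=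
    IsCyclotomicExtension.isGalois {q} ℚ _
  set N := IntermediateField.adjoin ℚ {ζ} with hN
  -- `Vof N = G1 q`
  have hle1 : Vof N ≤ G1 q := by
    intro g hg
    have hgζ : g ζ = ζ := hg ⟨ζ, IntermediateField.mem_adjoin_simple_self ℚ ζ⟩
    have h1 : ((cycloChar q g : (ZMod q)ˣ) : ZMod q) = ((1 : ℕ) : ZMod q) := by
      apply cycloChar_eq_of_actsBy
      intro z hz
      obtain ⟨i, -, rfl⟩ := hζ.eq_pow_of_pow_eq_one hz
      rw [map_pow, hgζ, pow_one]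
    change cycloChar q g = 1
    apply Units.ext
    rw [h1]
    simp
  have hle2 : G1 q ≤ Vof N := by
    intro g hg
    apply Unram_mem_Vof_adjoin
    have h1 : cycloChar q g = 1 := hg
    have h2 := apply_eq_pow_cycloChar (q := q) g hζ.pow_eq_one
    rw [h1] at h2
    have : Fact (1 < q) := ⟨hq.one_lt⟩
    rw [Units.val_one, ZMod.val_one, pow_one] at h2
    exact h2
  have hykh : y ∈ kh N 𝒜 :=
    IntermediateField.fixedField_le (inf_le_inf_right _ hle1) hy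
  obtain ⟨y₀, hy₀⟩ := exists_valuation_eq_of_mem_kh (N := N) h hykh hy0
  have habove : Above (plOf N 𝒜 h) (plOf ℚ 𝒜 h) := above_plOf_plOf h N
  have hunr : Unram ℚ (plOf N 𝒜 h) := by
    rw [unram_plOf_iff]
    exact inf_le_right.trans ((Ine_le_G1_of_ne 𝒜 hℓ hne h𝒜).trans hle2)
  have hord : ord (plOf N 𝒜 h) (algebraMap ℚ N (ℓ : ℚ)) = 1 := by
    rw [ord_algebraMap_of_unram habove hunr, Unram_ord_plOf_rat 𝒜 hℓ h𝒜 h]
  refine ⟨ord (plOf N 𝒜 h) (y₀ : N), ?_⟩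
  have hℓ0 : algebraMap ℚ N (ℓ : ℚ) ≠ 0 :=
    (map_ne_zero _).mpr (Nat.cast_ne_zero.mpr hℓ.ne_zero)
  have h1 : ord (plOf N 𝒜 h) (y₀ : N)
      = ord (plOf N 𝒜 h) ((algebraMap ℚ N (ℓ : ℚ)) ^ (ord (plOf N 𝒜 h) (y₀ : N))) := by
    rw [ord_zpow, hord, mul_one]
  rw [ord_plOf_eq_iff h y₀.ne_zero (zpow_ne_zero _ hℓ0)] at h1
  rw [hy₀, h1, map_zpow₀, map_zpow₀]
  congr 2

/-- Proof: `|c| = ∏ |σ^i y| = |y|^p` (`valuation_apply_of_mem_Dec`), `|y| = |ℓ|^n` (previous theorem;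
`fixedField (W ⊓ Dec 𝒜) ≤ fixedField (G1 q ⊓ Dec 𝒜)`), `|c| = |ℓ|^(padicValRat ℓ c)`
(`valuation_algebraMap_rat`), `zpow_valuation_prime_injective`. -/
theorem dvd_padicValRat_of_norm (𝒜 : Place) {ℓ : ℕ} (hℓ : ℓ.Prime) (hne : ℓ ≠ q)
    (h𝒜 : 𝒜.LiesOverPrime ℓ) {W : Subgroup GQ} (hW : G1 q ≤ W) {σ : GQ} (hσ : σ ∈ Dec 𝒜) (p : ℕ)
    {y : Qbar} (hy : y ∈ IntermediateField.fixedField (W ⊓ Dec 𝒜)) {c : ℚ} (hc : c ≠ 0)
    (hN : ∏ i ∈ Finset.range p, (σ ^ i) y = algebraMap ℚ Qbar c) :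
    (p : ℤ) ∣ padicValRat ℓ c := by
  rcases Nat.eq_zero_or_pos p with rfl | hp
  · simp only [Finset.range_zero, Finset.prod_empty] at hN
    have h1 : c = 1 := by
      apply (algebraMap ℚ Qbar).injective
      rw [← hN, map_one]
    rw [h1, padicValRat.one]
    exact dvd_zero _
  have hy0 : y ≠ 0 := by
    rintro rfl
    apply hc
    apply (algebraMap ℚ Qbar).injective
    rw [← hN, map_zero]
    exact Finset.prod_eq_zero (Finset.mem_range.2 hp) (map_zero _)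
  have hy' : y ∈ IntermediateField.fixedField (G1 q ⊓ Dec 𝒜) :=
    IntermediateField.fixedField_le (inf_le_inf_right _ hW) hy
  obtain ⟨n, hn⟩ := exists_valuation_eq_zpow_of_unram 𝒜 hℓ hne h𝒜 hy' hy0
  have h1 := congrArg 𝒜.valuation hN
  rw [map_prod, valuation_algebraMap_rat 𝒜 hℓ h𝒜 hc,
    Finset.prod_congr rfl (fun i _ => valuation_apply_of_mem_Dec ((Dec 𝒜).pow_mem hσ i) y),
    Finset.prod_const, Finset.card_range, hn, ← zpow_natCast, ← zpow_mul] at h1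
  have h2 := zpow_valuation_prime_injective 𝒜 hℓ h𝒜 h1
  exact ⟨n, by rw [← h2, mul_comm]⟩

end Fermat.Agent.PT

end
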