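/-
S55 (Poitou-Tate), block R: local consequences of the cyclic step for the character `xq ψ`.
Notation: `K = kummerQbar p`, `x = xq ψ`, `θ c = K.theta (ratA c _) x`.
-/
import Fermat.Agent.PT.R.Gen
import Fermat.Agent.PT.R.Unram
import Fermat.Agent.PT.R.Tame
import Fermat.Agent.PT.Global.Interface

set_option autoImplicit false

open ExtCitation

noncomputable section

namespace Fermat.Agent.PT

variable {p q : ℕ} [Fact p.Prime] [Fact q.Prime] (ψ : (ZMod q)ˣ →* Multiplicative (ZMod p))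

/-- a nontrivial value of the character on `V` gives an element with value `1`. -/
theorem Local_exists_sigma {V : Subgroup GQ} {d : GQ} (hd : d ∈ V) (hne : xq ψ 1 d ≠ 0) :
    ∃ σ ∈ V, xq ψ 1 σ = 1 := by
  apply exists_sigma (xq_mem_Z1' ψ V)
  intro h
  have h1 : d ∈ kerOf V (xq ψ) := by rw [h]; exact hd
  exact hne ((mem_kerOf_iff (xq_mem_Z1' ψ V)).mp h1).2

/-- (M1) If `ℓ ≠ q` is not a `p`-th power mod `q` the character is non trivial on `Dec 𝒜`, `𝒜 ∣ ℓ`. -/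
theorem exists_sigma_of_not_pow (hψ : ∀ u, ψ u = 1 ↔ ∃ w : (ZMod q)ˣ, w ^ p = u) (𝒜 : Place)
    {ℓ : ℕ} (hℓ : ℓ.Prime) (hne : ℓ ≠ q) (h𝒜 : 𝒜.LiesOverPrime ℓ)
    (hpow : ¬ ∃ w : ZMod q, w ^ p = (ℓ : ZMod q)) : ∃ σ ∈ Dec 𝒜, xq ψ 1 σ = 1 := by
  obtain ⟨d, hd, hdℓ⟩ := exists_dec_cycloChar_of_ne (q := q) 𝒜 hℓ hne h𝒜
  refine Local_exists_sigma ψ hd fun h0 => hpow ?_
  rw [xq_one] at h0
  have h1 : ψ (cycloChar q d) = 1 := by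
    apply Multiplicative.toAdd.injective
    rw [h0]; rfl
  obtain ⟨w, hw⟩ := (hψ _).mp h1
  refine ⟨(w : ZMod q), ?_⟩
  rw [← hdℓ, ← hw, Units.val_pow_eq_pow_val]

/-- (M2) The character is non trivial on `Dec 𝒜`, `𝒜 ∣ q` (`exists_dec_cycloChar_of_over`). -/
theorem exists_sigma_of_over (hψs : Function.Surjective ψ) (𝒜 : Place)
    (h𝒜 : 𝒜.LiesOverPrime q) : ∃ σ ∈ Dec 𝒜, xq ψ 1 σ = 1 := by
  obtain ⟨u, hu⟩ := hψs (Multiplicative.ofAdd 1)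
  obtain ⟨d, hd, hdu⟩ := exists_dec_cycloChar_of_over 𝒜 h𝒜 u
  exact ⟨d, hd, by rw [xq_one, hdu, hu]; rfl⟩

/-- translation of (CS2) over `Dec 𝒜`. -/
theorem Local_exists_norm (𝒜 : Place) {σ : GQ} (hσ : σ ∈ Dec 𝒜) (hσ1 : xq ψ 1 σ = 1) {c : ℚ}
    (hc : c ≠ 0)
    (h : (kummerQbar p).theta (ratA c hc) (xq ψ) ∈ B2 Lall (Dec 𝒜) (cycRep p)) :
    ∃ y : Qbar, y ∈ IntermediateField.fixedField (kerOf ⊤ (xq ψ) ⊓ Dec 𝒜) ∧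
      ∏ i ∈ Finset.range p, (σ ^ i) y = algebraMap ℚ Qbar c := by
  obtain ⟨y, hy, hN⟩ := (kummerQbar p).exists_norm_of_theta_mem_B2 (xq_mem_Z1' ψ (Dec 𝒜)) hσ hσ1
    (fun v _ => ratA_fixed c hc v) h
  refine ⟨((Additive.toMul y : Qbarˣ) : Qbar), ?_, ?_⟩
  · rw [kerOf_of_le (le_top : Dec 𝒜 ≤ ⊤), inf_comm] at hy
    exact multRep_fixed_iff.mp hy
  · rw [← toMul_sum_multRep, ← toMul_ratA c hc, ← hN]
    rfl

/-- (M3) -/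
theorem dvd_padicValRat_of_theta_mem_B2 (𝒜 : Place) {ℓ : ℕ} (hℓ : ℓ.Prime) (hne : ℓ ≠ q)
    (h𝒜 : 𝒜.LiesOverPrime ℓ) {σ : GQ} (hσ : σ ∈ Dec 𝒜) (hσ1 : xq ψ 1 σ = 1) {c : ℚ} (hc : c ≠ 0)
    (h : (kummerQbar p).theta (ratA c hc) (xq ψ) ∈ B2 Lall (Dec 𝒜) (cycRep p)) :
    (p : ℤ) ∣ padicValRat ℓ c := by
  obtain ⟨y, hy, hN⟩ := Local_exists_norm ψ 𝒜 hσ hσ1 hc h
  exact dvd_padicValRat_of_norm 𝒜 hℓ hne h𝒜 (G1_le_kerOf ψ) hσ p hy hc hN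

/-- (M4) the same at `q` with `tame_norm`. -/
theorem isPow_of_theta_mem_B2 (hψs : Function.Surjective ψ) (𝒜 : Place)
    (h𝒜 : 𝒜.LiesOverPrime q) {c : ℚ} (hc : c ≠ 0)
    (h : (kummerQbar p).theta (ratA c hc) (xq ψ) ∈ B2 Lall (Dec 𝒜) (cycRep p)) :
    ∃ a : ZMod q, ((c * (q : ℚ) ^ (-padicValRat q c) : ℚ) : ZMod q) = a ^ p := by
  obtain ⟨σ, hσ, hσ1⟩ := exists_sigma_of_over ψ hψs 𝒜 h𝒜
  obtain ⟨y, hy, hN⟩ := Local_exists_norm ψ 𝒜 hσ hσ1 hc h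
  exact tame_norm ψ hψs 𝒜 h𝒜 hσ (by rw [hσ1]; exact one_ne_zero) hy hc hN

end Fermat.Agent.PT

end
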