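/-
S55 (Poitou-Tate), block R: local consequences of the cyclic step for the character `xq ψ`.
Notation: `K = kummerQbar p`, `x = xq ψ`, `θ c = K.theta (ratA c _) x`.
-/
import Fermat.Agent.PT.R.Local

set_option autoImplicit false

open ExtCitation

noncomputable section

namespace Fermat.Agent.PT

variable {p q : ℕ} [Fact p.Prime] [Fact q.Prime] (ψ : (ZMod q)ˣ →* Multiplicative (ZMod p))

/-- (M5) `θ ℓ` generates `H²(Dec 𝒜, μ_p)` for `𝒜 ∣ ℓ`, `ℓ` not a `p`-th power mod `q`.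
Proof: `θ ℓ ∉ B2` by (M3) since `padicValRat ℓ ℓ = 1`; `exists_nsmul_sub_mem_B2`. -/
theorem exists_nsmul_theta (hcard : ∀ 𝒜 : Place, 𝒜.IsFin →
      Nat.card (H2 Lall (Dec 𝒜) (cycRep p)) = p) (𝒜 : Place)
    {ℓ : ℕ} (hℓ : ℓ.Prime) (hne : ℓ ≠ q) (h𝒜 : 𝒜.LiesOverPrime ℓ) {σ : GQ} (hσ : σ ∈ Dec 𝒜)
    (hσ1 : xq ψ 1 σ = 1) {w : GQ → GQ → GQ → ZMod p} (hw : w ∈ Z2 Lall (Dec 𝒜) (cycRep p)) :
    ∃ j : ℕ, w - j • (kummerQbar p).theta (ratA (ℓ : ℚ) (Nat.cast_ne_zero.mpr hℓ.ne_zero)) (xq ψ)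
      ∈ B2 Lall (Dec 𝒜) (cycRep p) := by
  have hp : p.Prime := Fact.out
  refine exists_nsmul_sub_mem_B2 (hcard 𝒜 ⟨⟨ℓ, hℓ⟩, h𝒜⟩)
    ((kummerQbar p).theta_mem_Z2 (fun v _ => ratA_fixed _ _ v) (xq_mem_Z1' ψ _)) ?_ hw
  intro hB
  have h1 := dvd_padicValRat_of_theta_mem_B2 ψ 𝒜 hℓ hne h𝒜 hσ hσ1 _ hB
  rw [padicValRat.self hℓ.one_lt] at h1
  have h2 := Int.eq_one_of_dvd_one (Int.natCast_nonneg p) h1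
  exact hp.one_lt.ne' (by exact_mod_cast h2)

/-- (M6) every class of `Dec 𝒜` dies on `kerOf ⊤ x ⊓ Dec 𝒜` ((M5) + (CS4) `theta_mem_B2_ker`). -/
theorem mem_B2_ker_of_not_pow (hcard : ∀ 𝒜 : Place, 𝒜.IsFin →
      Nat.card (H2 Lall (Dec 𝒜) (cycRep p)) = p) (𝒜 : Place)
    {ℓ : ℕ} (hℓ : ℓ.Prime) (hne : ℓ ≠ q) (h𝒜 : 𝒜.LiesOverPrime ℓ) {σ : GQ} (hσ : σ ∈ Dec 𝒜)
    (hσ1 : xq ψ 1 σ = 1) {w : GQ → GQ → GQ → ZMod p} (hw : w ∈ Z2 Lall (Dec 𝒜) (cycRep p)) :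
    w ∈ B2 Lall (kerOf ⊤ (xq ψ) ⊓ Dec 𝒜) (cycRep p) := by
  obtain ⟨j, hj⟩ := exists_nsmul_theta ψ hcard 𝒜 hℓ hne h𝒜 hσ hσ1 hw
  have h1 := B2_le_of_le (inf_le_right : kerOf ⊤ (xq ψ) ⊓ Dec 𝒜 ≤ Dec 𝒜) hj
  have h2 : (kummerQbar p).theta (ratA (ℓ : ℚ) (Nat.cast_ne_zero.mpr hℓ.ne_zero)) (xq ψ) ∈
      B2 Lall (kerOf ⊤ (xq ψ) ⊓ Dec 𝒜) (cycRep p) := by
    have h3 := (kummerQbar p).theta_mem_B2_ker (V := Dec 𝒜)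
      (b := ratA (ℓ : ℚ) (Nat.cast_ne_zero.mpr hℓ.ne_zero)) (fun v _ => ratA_fixed _ _ v)
      (xq_mem_Z1' ψ (Dec 𝒜))
    rwa [kerOf_of_le (le_top : Dec 𝒜 ≤ ⊤), inf_comm] at h3
  have h4 := add_mem h1 (nsmul_mem h2 j)
  rwa [sub_add_cancel] at h4

/-- (M7) Proof: (M5) gives `j` with `θ c - j • θ ℓ ∈ B2`; by `theta_nsmul`, `theta_sub`,
`ratA_sub_nsmul`: `θ (c / ℓ^j) ∈ B2`; (M3): `p ∣ padicValRat ℓ (c / ℓ^j) = padicValRat ℓ c - j`; so `p ∣ j`,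
`j • θ ℓ = 0` (`nsmul_eq_zero_of_dvd`). -/
theorem theta_mem_B2_of_dvd (hcard : ∀ 𝒜 : Place, 𝒜.IsFin →
      Nat.card (H2 Lall (Dec 𝒜) (cycRep p)) = p) (𝒜 : Place)
    {ℓ : ℕ} (hℓ : ℓ.Prime) (hne : ℓ ≠ q) (h𝒜 : 𝒜.LiesOverPrime ℓ) {σ : GQ} (hσ : σ ∈ Dec 𝒜)
    (hσ1 : xq ψ 1 σ = 1) {c : ℚ} (hc : c ≠ 0) (hdvd : (p : ℤ) ∣ padicValRat ℓ c) :
    (kummerQbar p).theta (ratA c hc) (xq ψ) ∈ B2 Lall (Dec 𝒜) (cycRep p) := by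
  have : Fact ℓ.Prime := ⟨hℓ⟩
  have hℓ0 : (ℓ : ℚ) ≠ 0 := Nat.cast_ne_zero.mpr hℓ.ne_zero
  have hx := xq_mem_Z1' ψ (Dec 𝒜)
  have hfix : ∀ (c' : ℚ) (hc' : c' ≠ 0), ∀ v ∈ Dec 𝒜, multRep v (ratA c' hc') = ratA c' hc' :=
    fun c' hc' v _ => ratA_fixed c' hc' v
  obtain ⟨j, hj⟩ := exists_nsmul_theta ψ hcard 𝒜 hℓ hne h𝒜 hσ hσ1
    ((kummerQbar p).theta_mem_Z2 (hfix c hc) hx)
  have h1 := (kummerQbar p).theta_nsmul (hfix _ hℓ0) hx j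
  have hfixj : ∀ v ∈ Dec 𝒜, multRep v (j • ratA (ℓ : ℚ) hℓ0) = j • ratA (ℓ : ℚ) hℓ0 := by
    intro v hv
    rw [map_nsmul, hfix _ hℓ0 v hv]
  have h2 := (kummerQbar p).theta_sub (hfix c hc) hfixj hx
  have h3 : (kummerQbar p).theta (ratA c hc - j • ratA (ℓ : ℚ) hℓ0) (xq ψ) ∈
      B2 Lall (Dec 𝒜) (cycRep p) := by
    have h4 := sub_mem (add_mem h2 hj) h1
    convert h4 using 1
    abel
  rw [ratA_sub_nsmul] at h3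
  have h5 := dvd_padicValRat_of_theta_mem_B2 ψ 𝒜 hℓ hne h𝒜 hσ hσ1 _ h3
  rw [padicValRat.div hc (pow_ne_zero _ hℓ0), padicValRat.pow, padicValRat.self hℓ.one_lt,
    mul_one] at h5
  have h6 : (p : ℤ) ∣ (j : ℤ) := by
    have := dvd_sub hdvd h5
    rwa [sub_sub_cancel] at this
  have h7 : p ∣ j := by exact_mod_cast h6
  rw [nsmul_eq_zero_of_dvd h7, sub_zero] at hj
  exact hj

end Fermat.Agent.PT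

end
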