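/-
S55 (Poitou-Tate), block R: **(R')**.  A class of `H²(G_ℚ, μ_p)` (`p` odd) which is trivial at all primes
`≠ q₀` is trivial at `q₀`.
-/
import Fermat.Agent.PT.R.Local2
import Fermat.Agent.PT.R.ExistsQ
import Fermat.Agent.PT.R.Arith

set_option autoImplicit false

open ExtCitation

noncomputable section

namespace Fermat.Agent.PT

variable {p : ℕ} [Fact p.Prime]

/-- Proof.  `ℓ₀ := q₀`.  `q` from `exists_aux_prime p`, `ψ` from `exists_psiR`, `x := xq ψ`,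
`V_L := kerOf ⊤ x` (open: `isOpen_kerOf_xq`), `K := kummerQbar p`.  `hcard` from `LocalCardStatement` with
`V = ⊤` (`top_inf_eq`; `Lall.IsOpen ⊤`).
1. `z ∈ B2 Lall (V_L ⊓ Dec 𝒜) cyc` for every finite `𝒜 ∣ ℓ`: if `ℓ ≠ ℓ₀` by hypothesis and
   `B2_le_of_le`; if `ℓ = ℓ₀` by `exists_sigma_of_not_pow` and (M6) `mem_B2_ker_of_not_pow`.
2. `HPStatement` for `V_L`: `z ∈ B2 Lall V_L cyc`.
3. `V_L ≠ ⊤` (e.g. by `exists_sigma_of_not_pow` at a place over `ℓ₀`, `Lib.Frobenius.exists_liesOverPrime`);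
   (CS3) `K.exists_theta_of_mem_B2_ker`: `z - K.theta b x ∈ B2 Lall ⊤ cyc`, `b = ratA c hc`
   (`exists_ratA_of_fixed`).
4. for a prime `ℓ ≠ ℓ₀` pick `𝒜 ∣ ℓ`: `K.theta b x ∈ B2 Lall (Dec 𝒜) cyc`.  If `ℓ ≠ q`: either `ℓ` is a `p`-th
   power mod `q` or (M1), (M3) give `p ∣ padicValRat ℓ c`.  If `ℓ = q`: (M4).
5. `dvd_padicValRat_of_reciprocity`: `p ∣ padicValRat ℓ₀ c`.
6. (M1), (M7) at `𝒜₀`: `K.theta b x ∈ B2 Lall (Dec 𝒜₀) cyc`, hence `z ∈ B2 Lall (⊤ ⊓ Dec 𝒜₀) cyc`. -/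
theorem rPrimeStatement (hp2 : p ≠ 2) (hHP : HPStatement p) (hLC : LocalCardStatement p) :
    RPrimeStatement p := by
  intro z hz q₀ hloc 𝒜₀ h𝒜₀
  have hℓ₀ : (q₀ : ℕ).Prime := q₀.2
  obtain ⟨q, hq, hpq, hqne, hnpow⟩ := exists_aux_prime p hℓ₀
  have : Fact q.Prime := ⟨hq⟩
  obtain ⟨ψ, hψs, hψ⟩ := exists_psiR p q hpq
  have hxZ : xq ψ ∈ Z1 Lall ⊤ (trivZ p GQ) := xq_mem_Z1 ψ
  have htop : Lall.IsOpen (⊤ : Subgroup GQ) := by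
    obtain ⟨U, hU⟩ := Lall.nonempty'
    exact ⟨U, hU, le_top⟩
  have hcard : ∀ 𝒜 : Place, 𝒜.IsFin → Nat.card (H2 Lall (Dec 𝒜) (cycRep p)) = p := by
    intro 𝒜 h
    have h1 := hLC ⊤ htop 𝒜 h
    rwa [top_inf_eq] at h1
  -- step 1
  have step1 : ∀ 𝒜 : Place, 𝒜.IsFin → z ∈ B2 Lall (kerOf ⊤ (xq ψ) ⊓ Dec 𝒜) (cycRep p) := by
    rintro 𝒜 ⟨ℓ, hℓ⟩
    by_cases hne : ℓ = q₀
    · subst hne
      obtain ⟨σ, hσ, hσ1⟩ := exists_sigma_of_not_pow ψ hψ 𝒜 hℓ₀ hqne.symm hℓ hnpow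
      exact mem_B2_ker_of_not_pow ψ hcard 𝒜 hℓ₀ hqne.symm hℓ hσ hσ1 (Z2_le_of_le le_top hz)
    · exact B2_le_of_le (inf_le_inf_right _ le_top) (hloc 𝒜 ℓ hne hℓ)
  -- step 2
  have step2 : z ∈ B2 Lall (kerOf ⊤ (xq ψ)) (cycRep p) :=
    hHP _ (isOpen_kerOf_xq ψ) z (Z2_le_of_le le_top hz) step1
  -- step 3
  obtain ⟨σ₀, hσ₀, hσ₀1⟩ := exists_sigma_of_not_pow ψ hψ 𝒜₀ hℓ₀ hqne.symm h𝒜₀ hnpow
  have hne : kerOf ⊤ (xq ψ) ≠ ⊤ := by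
    intro htop'
    have h1 : σ₀ ∈ kerOf ⊤ (xq ψ) := htop'.ge (Subgroup.mem_top σ₀)
    have h0 := ((mem_kerOf_iff hxZ).1 h1).2
    rw [hσ₀1] at h0
    exact one_ne_zero h0
  obtain ⟨b, hb, hzb⟩ := (kummerQbar p).exists_theta_of_mem_B2_ker hxZ hne hz step2
  obtain ⟨c, hc, rfl⟩ := exists_ratA_of_fixed hb
  -- step 4
  have step4 : ∀ (𝒜 : Place) (ℓ : Nat.Primes), ℓ ≠ q₀ → 𝒜.LiesOverPrime (ℓ : ℕ) →
      (kummerQbar p).theta (ratA c hc) (xq ψ) ∈ B2 Lall (Dec 𝒜) (cycRep p) := by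
    intro 𝒜 ℓ hne h𝒜
    have h1 := hloc 𝒜 ℓ hne h𝒜
    rw [top_inf_eq] at h1
    have h2 := B2_le_of_le (le_top : Dec 𝒜 ≤ ⊤) hzb
    have h3 : (kummerQbar p).theta (ratA c hc) (xq ψ)
        = z - (z - (kummerQbar p).theta (ratA c hc) (xq ψ)) := by abel
    rw [h3]
    exact Submodule.sub_mem _ h1 h2
  -- step 5
  have step5 : (p : ℤ) ∣ padicValRat (q₀ : ℕ) c := by
    refine dvd_padicValRat_of_reciprocity hp2 hℓ₀ hqne.symm hc ?_ ?_ hnpow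
    · intro ℓ hℓ hℓq hℓℓ₀
      by_cases hpow : ∃ w : ZMod q, w ^ p = (ℓ : ZMod q)
      · exact Or.inl hpow
      · right
        obtain ⟨𝒜, h𝒜⟩ := Fermat.Agent.Lib.Frobenius.exists_liesOverPrime Qbar hℓ
        obtain ⟨σ, hσ, hσ1⟩ := exists_sigma_of_not_pow ψ hψ 𝒜 hℓ hℓq h𝒜 hpow
        exact dvd_padicValRat_of_theta_mem_B2 ψ 𝒜 hℓ hℓq h𝒜 hσ hσ1 hc
          (step4 𝒜 ⟨ℓ, hℓ⟩ (fun h => hℓℓ₀ (congrArg Subtype.val h)) h𝒜)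
    · obtain ⟨𝒜, h𝒜⟩ := Fermat.Agent.Lib.Frobenius.exists_liesOverPrime Qbar hq
      exact isPow_of_theta_mem_B2 ψ hψs 𝒜 h𝒜 hc
        (step4 𝒜 ⟨q, hq⟩ (fun h => hqne (congrArg Subtype.val h)) h𝒜)
  -- step 6
  have h6 := theta_mem_B2_of_dvd ψ hcard 𝒜₀ hℓ₀ hqne.symm h𝒜₀ hσ₀ hσ₀1 hc step5
  rw [top_inf_eq]
  have h2 := B2_le_of_le (le_top : Dec 𝒜₀ ≤ ⊤) hzb
  have h3 : z = (z - (kummerQbar p).theta (ratA c hc) (xq ψ))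
      + (kummerQbar p).theta (ratA c hc) (xq ψ) := by abel
  rw [h3]
  exact Submodule.add_mem _ h2 h6

end Fermat.Agent.PT

end
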